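import Fermat.Agent.AV.Curve.Dim
import Mathlib.FieldTheory.IsAlgClosed.AlgebraicClosure
import Mathlib.FieldTheory.AlgebraicClosure

/-!
# Relative algebraic closures of fields generated by finite families
-/

set_option autoImplicit false
set_option linter.style.haveILetI false
set_option linter.unusedSectionVars false

noncomputable section

open Set

namespace FLTAgent.AV

universe u

variable {K L : Type u} [Field K] [Field L] [Algebra K L]

theorem mem_talg {T : Set L} {x : L} :
    x ∈ talg K T ↔ x ∈ (AlgebraicIndependent.matroid K L).closure T := by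
  rw [AlgebraicIndependent.matroid_closure_eq, SetLike.mem_coe, Subalgebra.mem_algebraicClosure]
  show x ∈ algebraicClosure (IntermediateField.adjoin K T) L ↔ _
  rw [mem_algebraicClosure_iff, IntermediateField.isAlgebraic_adjoin_iff]

theorem coe_talg (T : Set L) :
    (talg K T : Set L) = (AlgebraicIndependent.matroid K L).closure T :=
  Set.ext fun _ => mem_talg

theorem talg_le {S T : Set L} (h : S ⊆ talg K T) : talg K S ≤ talg K T := by
  intro x hx
  rw [mem_talg] at hx ⊢
  exact Matroid.closure_subset_closure_of_subset_closure (fun y hy => mem_talg.1 (h hy)) hx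

theorem talg_mono {S T : Set L} (h : S ⊆ T) : talg K S ≤ talg K T :=
  talg_le (h.trans (subset_talg K T))

theorem adjoin_le_talg {S T : Set L} (h : S ⊆ talg K T) : IntermediateField.adjoin K S ≤ talg K T :=
  IntermediateField.adjoin_le_iff.2 h

theorem subset_talg_of_subset {S T : Set L} (h : S ⊆ T) : S ⊆ talg K T :=
  h.trans (subset_talg K T)

/-- A relative algebraic closure in an algebraically closed field is algebraically closed. -/
theorem isAlgClosed_talg [IsAlgClosed L] (T : Set L) : IsAlgClosed (talg K T) :=
  (algebraicClosure.isAlgClosure (IntermediateField.adjoin K T) L).isAlgClosed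

theorem exists_algebraMap_of_mem_talg_empty [IsAlgClosed K] {x : L} (hx : x ∈ talg K (∅ : Set L)) :
    ∃ c, algebraMap K L c = x := by
  have h1 : IsAlgebraic (IntermediateField.adjoin K (∅ : Set L)) x := mem_algebraicClosure_iff.1 hx
  rw [IntermediateField.isAlgebraic_adjoin_iff, Algebra.adjoin_empty] at h1
  have h2 : IsAlgebraic K x := h1.restrictScalars K
  obtain ⟨c, hc⟩ := minpoly.degree_eq_one_iff.1
    (IsAlgClosed.degree_eq_one_of_irreducible K (minpoly.irreducible h2.isIntegral))
  exact ⟨c, hc⟩

/-- A family as large as the rank of its range has no member algebraic over the others. -/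
theorem notMem_talg_of_card_le {ι : Type*} [Fintype ι] (w : ι → L)
    (h : (Fintype.card ι : ℕ∞) ≤ tdim K (range w)) (i : ι) : w i ∉ talg K (w '' {i}ᶜ) := by
  classical
  intro hi
  have h1 : range w ⊆ talg K (w '' {i}ᶜ) := by
    rintro _ ⟨j, rfl⟩
    by_cases hj : j = i
    · exact hj ▸ hi
    · exact subset_talg K _ ⟨j, hj, rfl⟩
  have h2 := h.trans ((tdim_le_of_subset h1).trans ((tdim_le_encard K _).trans
    (encard_image_le _ _)))
  rw [show ({i}ᶜ : Set ι) = ↑((Finset.univ : Finset ι).erase i) by ext; simp,
    encard_coe_eq_coe_finsetCard, Nat.cast_le, Finset.card_erase_of_mem (Finset.mem_univ i),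
    Finset.card_univ] at h2
  have := Fintype.card_pos_iff.2 ⟨i⟩
  omega

/-- A family as large as the rank of its range is algebraically independent. -/
theorem algebraicIndependent_of_card_le {ι : Type*} [Fintype ι] {w : ι → L}
    (h : (Fintype.card ι : ℕ∞) ≤ tdim K (range w)) : AlgebraicIndependent K w := by
  have hinj : Function.Injective w := fun i j hij => by
    by_contra hne
    exact notMem_talg_of_card_le w h i (subset_talg K _ ⟨j, Ne.symm hne, hij.symm⟩)
  have h1 : (AlgebraicIndependent.matroid K L).Indep (range w) := by
    rw [Matroid.indep_iff_eRk_eq_encard_of_finite (finite_range w)]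
    refine le_antisymm (Matroid.eRk_le_encard _ _) (le_of_eq_of_le ?_ h)
    rw [← image_univ, hinj.encard_image, encard_univ, ENat.card_eq_coe_fintype_card]
  exact (AlgebraicIndependent.matroid_indep_iff.1 h1).of_subtype_range hinj

theorem indep_tdim_image {ι : Type*} {w : ι → L} (hw : AlgebraicIndependent K w)
    (s : Set ι) : tdim K (w '' s) = s.encard := by
  haveI := (faithfulSMul_iff_algebraMap_injective K L).2 (algebraMap K L).injective
  have h1 : (AlgebraicIndependent.matroid K L).Indep (w '' s) :=
    AlgebraicIndependent.matroid_indep_iff.2 (by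
      have h2 := (hw.comp (Subtype.val : s → ι) Subtype.val_injective).to_subtype_range
      rwa [Set.range_comp, Subtype.range_coe] at h2)
  rw [tdim, h1.eRk_eq_encard, hw.injective.encard_image]

/-- An element of an independent family is not algebraic over the others. -/
theorem indep_notMem_talg {ι : Type*} {w : ι → L} (hw : AlgebraicIndependent K w)
    {s : Set ι} {i : ι} (hi : i ∉ s) : w i ∉ talg K (w '' s) := fun h => by
  have h1 : IsAlgebraic (IntermediateField.adjoin K (w '' s)) (w i) := mem_algebraicClosure_iff.1 h
  exact hw.transcendental_adjoin hi (IntermediateField.isAlgebraic_adjoin_iff.1 h1)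

/-- An independent family stays independent over the closure of a disjoint part. -/
theorem indep_over_talg {ι : Type*} {w : ι → L} (hw : AlgebraicIndependent K w)
    {s t : Set ι} (h : Disjoint s t) :
    AlgebraicIndependent (talg K (w '' s)) fun i : t => w i :=
  (IntermediateField.algebraicIndependent_adjoin_iff.2 (hw.adjoin_of_disjoint h)).algebraicClosure

/-- If adding a set raises the rank by at most one, one new element spans it. -/
theorem subset_talg_insert {S T : Set L} {t : L} (ht : t ∈ T) (htS : t ∉ talg K S) {n : ℕ}
    (hS : tdim K S = n) (h : tdim K (S ∪ T) ≤ (n + 1 : ℕ)) : T ⊆ talg K (insert t S) := by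
  intro y hy
  by_contra hy'
  rw [mem_talg] at htS
  rw [SetLike.mem_coe, mem_talg] at hy'
  have h1 := Matroid.eRk_insert_eq_add_one (M := AlgebraicIndependent.matroid K L) (X := S)
    (e := t) ⟨by simp, htS⟩
  have h2 := Matroid.eRk_insert_eq_add_one (M := AlgebraicIndependent.matroid K L)
    (X := insert t S) (e := y) ⟨by simp, hy'⟩
  have h3 : tdim K (insert y (insert t S)) ≤ (n + 1 : ℕ) :=
    (tdim_mono K (Set.insert_subset (Or.inr hy) (Set.insert_subset (Or.inr ht)
      Set.subset_union_left))).trans h
  rw [tdim, h2, h1, show (AlgebraicIndependent.matroid K L).eRk S = (n : ℕ∞) from hS] at h3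
  have h4 : ((n + 1 + 1 : ℕ) : ℕ∞) ≤ ((n + 1 : ℕ) : ℕ∞) := by exact_mod_cast h3
  rw [Nat.cast_le] at h4
  omega

end FLTAgent.AV
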