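import Fermat.Agent.AV.Count.Closure
import Fermat.Agent.AV.Const.Exists

/-!
# Linear disjointness for independent generic points

Over algebraically closed constants the fields of independent generic points are linearly
disjoint; hence a relation between products of their values holds on the diagonal.
-/

set_option autoImplicit false
set_option linter.style.haveILetI false
set_option linter.unusedSectionVars false

noncomputable section

open Set IntermediateField FLTAgent.Curves FLTAgent.Jac27.Spread

namespace FLTAgent.AV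

universe u

variable {K L : Type u} [Field K] [Field L] [Algebra K L]

/-- A field generated over a relatively closed field by finitely many elements algebraic over one
coordinate is a function field. -/
theorem isFunctionField_adjoin [IsAlgClosed L] (S G : Set L) (hG : G.Finite) {t : L} (htG : t ∈ G)
    (ht : t ∉ talg K S) (halg : G ⊆ talg K (insert t S)) :
    IsFunctionField (talg K S) (IntermediateField.adjoin (talg K S) G) ∧
      Transcendental (talg K S)
        (⟨t, subset_adjoin _ _ htG⟩ : IntermediateField.adjoin (talg K S) G) := by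
  haveI := isAlgClosed_talg (K := K) S
  set F := IntermediateField.adjoin (talg K S) G with hF
  set t₀ : F := ⟨t, subset_adjoin _ _ htG⟩
  have htr : Transcendental (talg K S) t₀ := transcendental_of_ne_algebraMap fun c hc => ht (by
    have h1 : t = algebraMap (talg K S) L c := congrArg Subtype.val hc
    rw [h1]; exact c.2)
  refine ⟨IsFunctionField.mk_of t₀ htr ?_, htr⟩
  have hmap : ((talg K S)⟮t₀⟯).map F.val = (talg K S)⟮t⟯ := by
    rw [adjoin_map, image_singleton]; rfl
  have hE : ∀ z ∈ IntermediateField.adjoin K (insert t S),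
      ∃ z' ∈ (talg K S)⟮t₀⟯, (z' : L) = z := by
    intro z hz
    have h1 : IntermediateField.adjoin K (insert t S) ≤
        ((talg K S)⟮t⟯).restrictScalars K := by
      refine adjoin_le_iff.2 (Set.insert_subset (mem_adjoin_simple_self _ t) fun y hy => ?_)
      exact ((talg K S)⟮t⟯).algebraMap_mem ⟨y, subset_talg K S hy⟩
    obtain ⟨z', hz', e⟩ := (hmap.symm ▸ (show z ∈ (talg K S)⟮t⟯ from h1 hz) :
      z ∈ ((talg K S)⟮t₀⟯).map F.val)
    exact ⟨z', hz', e⟩
  choose f hf hfe using fun z : IntermediateField.adjoin K (insert t S) => hE z z.2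
  let e : IntermediateField.adjoin K (insert t S) →+* (talg K S)⟮t₀⟯ :=
    { toFun := fun z => ⟨f z, hf z⟩
      map_one' := Subtype.ext (Subtype.ext (by simp [hfe]))
      map_mul' := fun a b => Subtype.ext (Subtype.ext (by simp [hfe]))
      map_zero' := Subtype.ext (Subtype.ext (by simp [hfe]))
      map_add' := fun a b => Subtype.ext (Subtype.ext (by simp [hfe])) }
  set T : Set F := Subtype.val ⁻¹' G with hT
  haveI : Finite T := (hG.preimage Subtype.val_injective.injOn).to_subtype
  haveI : FiniteDimensional (talg K S)⟮t₀⟯ (IntermediateField.adjoin (talg K S)⟮t₀⟯ T) := by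
    refine IntermediateField.finiteDimensional_adjoin (fun y hy => ?_)
    have hy' : IsAlgebraic (IntermediateField.adjoin K (insert t S)) (y : L) :=
      mem_algebraicClosure_iff.1 (halg hy)
    obtain ⟨q, hq, hq0⟩ := hy'
    refine IsAlgebraic.isIntegral ⟨q.map e, fun h0 =>
      hq ((Polynomial.map_eq_zero_iff e.injective).1 h0), Subtype.ext ?_⟩
    rw [Polynomial.aeval_def, Polynomial.eval₂_map]
    rw [Polynomial.aeval_def] at hq0
    refine (Polynomial.hom_eval₂ q _ F.val.toRingHom y).trans (Eq.trans ?_ hq0)
    refine congrArg (fun φ => Polynomial.eval₂ φ (y : L) q) ?_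
    exact RingHom.ext fun z => hfe z
  have htop : IntermediateField.adjoin (talg K S)⟮t₀⟯ T = ⊤ := by
    apply IntermediateField.restrictScalars_injective (talg K S)
    rw [IntermediateField.restrictScalars_top, eq_top_iff]
    have hTtop : IntermediateField.adjoin (talg K S) T = ⊤ := by
      refine IntermediateField.map_injective F.val ?_
      rw [adjoin_map, ← AlgHom.fieldRange_eq_map, IntermediateField.fieldRange_val]
      refine congrArg _ (Set.ext fun y => ⟨?_, fun hy => ⟨⟨y, subset_adjoin _ _ hy⟩, hy, rfl⟩⟩)
      rintro ⟨y', hy', rfl⟩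
      exact hy'
    rw [← hTtop]
    exact adjoin_le_iff.2 (subset_adjoin (talg K S)⟮t₀⟯ T)
  exact Module.Finite.equiv
    ((IntermediateField.equivOfEq htop).trans IntermediateField.topEquiv).toLinearEquiv

/-- The family admits no relation with coefficients in the set. -/
def NoRel (C : Set L) {r : ℕ} (β : Fin r → L) : Prop :=
  ∀ c : Fin r → L, (∀ i, c i ∈ C) → ∑ i, c i * β i = 0 → c = 0

/-- Functions of a curve over a closed field are linearly disjoint from larger constants. -/
theorem eq_zero_of_constExt {L₀ L₁ Ω : Type u} [Field L₀] [Field L₁] [Field Ω] [Algebra L₀ L₁]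
    [Algebra L₁ Ω] [Algebra L₀ Ω] [IsScalarTower L₀ L₁ Ω] [IsAlgClosed L₀] [IsAlgClosed L₁]
    (F₀ : IntermediateField L₀ Ω) [IsFunctionField L₀ F₀] (t : F₀) (ht : Transcendental L₀ t)
    (htΩ : Transcendental L₁ (t : Ω)) {r : ℕ} (β : Fin r → L₁) (hβ : LinearIndependent L₀ β)
    (c : Fin r → F₀) (hsum : ∑ i, β i • (c i : Ω) = 0) : c = 0 := by
  obtain ⟨hFF, hCE⟩ := Const.constExt_adjoin (L := L₁) F₀.val ht htΩ
  haveI := hFF
  set U := Submodule.span L₀ (range c)
  haveI : FiniteDimensional L₀ U := FiniteDimensional.span_of_finite _ (finite_range c)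
  let b := Module.finBasis L₀ U
  have hli := linearIndependent_map (Const.toAdjoin (L := L₁) F₀.val) hCE
    (g := fun l => (b l : F₀))
    (b.linearIndependent.map' U.subtype (Submodule.ker_subtype _))
  have hliΩ := hli.map' (IntermediateField.adjoin L₁ (range F₀.val)).val.toLinearMap
    (LinearMap.ker_eq_bot.2 Subtype.val_injective)
  let γ : Fin r → Fin (Module.finrank L₀ U) → L₀ := fun i l =>
    b.repr ⟨c i, Submodule.subset_span ⟨i, rfl⟩⟩ l
  have hc : ∀ i, c i = ∑ l, γ i l • (b l : F₀) := fun i => by
    have := congrArg U.subtype (b.sum_repr ⟨c i, Submodule.subset_span ⟨i, rfl⟩⟩)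
    rw [map_sum] at this
    simpa using this.symm
  have hcΩ : ∀ i, (c i : Ω) = ∑ l, γ i l • ((b l : F₀) : Ω) := fun i => by
    rw [hc i, ← IntermediateField.coe_val, map_sum]
    exact Finset.sum_congr rfl fun l _ => map_smul F₀.val (γ i l) (b l : F₀)
  have h0 : ∑ l, (∑ i, γ i l • β i) • ((b l : F₀) : Ω) = 0 := by
    rw [← hsum]
    simp only [hcΩ, Finset.sum_smul, Finset.smul_sum]
    rw [Finset.sum_comm]
    refine Finset.sum_congr rfl fun i _ => Finset.sum_congr rfl fun l _ => ?_
    rw [smul_assoc, smul_comm]
  have h1 := Fintype.linearIndependent_iff.1 hliΩ _ h0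
  funext i
  rw [hc i]
  refine Finset.sum_eq_zero fun l _ => ?_
  rw [Fintype.linearIndependent_iff.1 hβ (fun i => γ i l) (h1 l) i, zero_smul]

/-- One more coordinate over two closed fields. -/
theorem noRel_adjoin (L₀ L₁ : IntermediateField K L) (hle : L₀ ≤ L₁) [IsAlgClosed L₀]
    [IsAlgClosed L₁] {t : L} {T : Set L} (htT : t ∈ T) [IsFunctionField L₀ (adjoin L₀ T)]
    (htr : Transcendental L₀ (⟨t, subset_adjoin _ _ htT⟩ : adjoin L₀ T)) (ht : t ∉ L₁)
    {r : ℕ} {β : Fin r → L} (hβ : ∀ i, β i ∈ L₁) (h : NoRel (L₀ : Set L) β)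
    {c : Fin r → L} (hc : ∀ i, c i ∈ T) (hsum : ∑ i, c i * β i = 0) : c = 0 := by
  letI : Algebra L₀ L₁ := (IntermediateField.inclusion hle).toRingHom.toAlgebra
  haveI : IsScalarTower L₀ L₁ L := IsScalarTower.of_algebraMap_eq fun _ => rfl
  have htS : Transcendental L₁ t := transcendental_of_ne_algebraMap fun a ha => ht (by
    rw [ha]; exact a.2)
  have hli : LinearIndependent L₀ fun i => (⟨β i, hβ i⟩ : L₁) := by
    rw [Fintype.linearIndependent_iff]
    intro γ hγ i
    have hz := h (fun i => (γ i : L)) (fun i => (γ i).2) (by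
      have e := congrArg L₁.val hγ
      rw [map_sum, map_zero] at e
      exact e)
    exact Subtype.ext (congrFun hz i)
  have hzero := eq_zero_of_constExt (adjoin L₀ T) _ htr htS (fun i => ⟨β i, hβ i⟩) hli
    (fun i => ⟨c i, subset_adjoin _ _ (hc i)⟩)
    (by
      rw [← hsum]
      exact Finset.sum_congr rfl fun i _ => mul_comm _ _)
  funext i
  exact congrArg Subtype.val (congrFun hzero i)

/-- One more coordinate, transcendental over the field of the family. -/
theorem noRel_insert [IsAlgClosed L] {S₀ S : Set L} (hS : S₀ ⊆ S) {t : L} (ht : t ∉ talg K S)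
    {r : ℕ} {β : Fin r → L} (hβ : ∀ i, β i ∈ talg K S) (h : NoRel (talg K S₀ : Set L) β) :
    NoRel (talg K (insert t S₀) : Set L) β := by
  intro c hc hsum
  have hFF := isFunctionField_adjoin (K := K) S₀ (insert t (range c))
    ((finite_range c).insert t) (mem_insert _ _) (fun h' => ht (talg_mono hS h'))
    (Set.insert_subset (subset_talg K _ (mem_insert _ _)) (range_subset_iff.2 hc))
  exact @noRel_adjoin K L _ _ _ (talg K S₀) (talg K S) (talg_mono hS) (isAlgClosed_talg S₀)
    (isAlgClosed_talg S) t (insert t (range c)) (mem_insert _ _) hFF.1 hFF.2 ht r β hβ h c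
    (fun i => mem_insert_of_mem _ ⟨i, rfl⟩) hsum

/-- Elements independent over the constants stay independent over the field of an independent
family. -/
theorem noRel_talg [IsAlgClosed K] [IsAlgClosed L] {ι : Type*} (w : ι → L) (S : Set L)
    (hw : ∀ i, w i ∉ talg K (S ∪ w '' {i}ᶜ)) {r : ℕ} {β : Fin r → L}
    (hβ : ∀ i, β i ∈ talg K S) (hli : LinearIndependent K β) (J : Finset ι) :
    NoRel (talg K (w '' (J : Set ι)) : Set L) β := by
  classical
  induction J using Finset.induction with
  | empty =>
    intro c hc hsum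
    rw [Finset.coe_empty, image_empty] at hc
    choose a ha using fun i => exists_algebraMap_of_mem_talg_empty (hc i)
    have := Fintype.linearIndependent_iff.1 hli a (by
      rw [← hsum]
      exact Finset.sum_congr rfl fun i _ => by rw [Algebra.smul_def, ha])
    funext i
    rw [← ha i, this i, map_zero]; rfl
  | insert i J hi ih =>
    rw [Finset.coe_insert, image_insert_eq]
    refine noRel_insert (S := S ∪ w '' (J : Set ι)) subset_union_right ?_
      (fun l => talg_mono subset_union_left (hβ l)) ih
    refine fun h => hw i (talg_mono (union_subset_union_right _ (image_mono ?_)) h)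
    exact fun j hj e => hi (Finset.mem_coe.1 (Set.mem_singleton_iff.1 e ▸ hj))

/-- The bilinear form of linear disjointness. -/
theorem eq_zero_of_sum_mul [IsAlgClosed K] [IsAlgClosed L] {ι : Type*} [Fintype ι] (w : ι → L)
    (S : Set L) (hw : ∀ i, w i ∉ talg K (S ∪ w '' {i}ᶜ)) {r : ℕ} {β : Fin r → L}
    (hβ : ∀ i, β i ∈ talg K (range w)) (hli : LinearIndependent K β) {c : Fin r → L}
    (hc : ∀ i, c i ∈ talg K S) (hsum : ∑ i, c i * β i = 0) : c = 0 := by
  classical
  set U := Submodule.span K (range c)
  haveI : FiniteDimensional K U := FiniteDimensional.span_of_finite K (finite_range c)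
  let b := Module.finBasis K U
  have hb : ∀ l, (b l : L) ∈ talg K S := fun l =>
    (Submodule.span_le.2 (by rintro _ ⟨i, rfl⟩; exact hc i) :
      U ≤ Subalgebra.toSubmodule (talg K S).toSubalgebra) (b l).2
  have hno := noRel_talg w S hw hb
    (b.linearIndependent.map' U.subtype (Submodule.ker_subtype _)) Finset.univ
  rw [Finset.coe_univ, image_univ] at hno
  let γ : Fin r → Fin (Module.finrank K U) → K := fun i l =>
    b.repr ⟨c i, Submodule.subset_span ⟨i, rfl⟩⟩ l
  have hci : ∀ i, c i = ∑ l, γ i l • (b l : L) := fun i => by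
    have := congrArg U.subtype (b.sum_repr ⟨c i, Submodule.subset_span ⟨i, rfl⟩⟩)
    rw [map_sum] at this
    simpa using this.symm
  have h0 := hno (fun l => ∑ i, γ i l • β i)
    (fun l => (talg K (range w)).sum_mem fun i _ => (talg K (range w)).toSubalgebra.smul_mem (hβ i) _)
    (by
      rw [← hsum]
      simp only [hci, Finset.sum_mul]
      rw [Finset.sum_comm]
      refine Finset.sum_congr rfl fun i _ => Finset.sum_congr rfl fun l _ => ?_
      simp only [Algebra.smul_def]; ring)
  funext i
  rw [hci i]
  refine Finset.sum_eq_zero fun l _ => ?_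
  rw [Fintype.linearIndependent_iff.1 hli (fun i => γ i l) (congrFun h0 l) i, zero_smul]

/-- A relation between products of values at independent generic points holds on the diagonal. -/
theorem sum_prod_eq_zero [IsAlgClosed K] [IsAlgClosed L] {N : Type u} [Field N] [Algebra K N]
    {m g : ℕ} (e : Fin m → (N →ₐ[K] L)) (h : Fin g → N)
    (halg : ∀ j z, e j z ∈ talg K (range fun l => e j (h l)))
    (hw : ∀ j l, e j (h l) ∉
      talg K ((fun q : Fin m × Fin g => e q.1 (h q.2)) '' {(j, l)}ᶜ))
    (J : Finset (Fin m)) {κ : Type*} [Fintype κ] (a : κ → Fin m → N) (c : κ → K)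
    (h0 : ∑ k, c k • ∏ j ∈ J, e j (a k j) = 0) : ∑ k, c k • ∏ j ∈ J, a k j = 0 := by
  classical
  induction J using Finset.induction generalizing c with
  | empty =>
    simp only [Finset.prod_empty, ← Algebra.algebraMap_eq_smul_one, ← map_sum] at h0 ⊢
    rw [(_root_.map_eq_zero _).1 h0, map_zero]
  | insert j J hj ih =>
    set S : Set L := (fun q : Fin m × Fin g => e q.1 (h q.2)) '' {q | q.1 ∈ J}
    set U := Submodule.span K (range fun k => a k j)
    haveI : FiniteDimensional K U := FiniteDimensional.span_of_finite K (finite_range _)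
    let b := Module.finBasis K U
    let γ : κ → Fin (Module.finrank K U) → K := fun k l =>
      b.repr ⟨a k j, Submodule.subset_span ⟨k, rfl⟩⟩ l
    have hak : ∀ k, a k j = ∑ l, γ k l • (b l : N) := fun k => by
      have := congrArg U.subtype (b.sum_repr ⟨a k j, Submodule.subset_span ⟨k, rfl⟩⟩)
      rw [map_sum] at this
      simpa using this.symm
    have hz := eq_zero_of_sum_mul (fun l => e j (h l)) S (fun l hl => hw j l (by
        refine talg_mono ?_ hl
        rintro x (⟨q, hq, rfl⟩ | ⟨l', hl', rfl⟩)
        · exact ⟨q, fun e' => hj (by rw [Set.mem_singleton_iff.1 e'] at hq; exact hq), rfl⟩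
        · exact ⟨(j, l'), fun e' => hl' (congrArg Prod.snd (Set.mem_singleton_iff.1 e')), rfl⟩))
      (β := fun l => e j (b l : N)) (fun l => halg j _)
      ((b.linearIndependent.map' U.subtype (Submodule.ker_subtype _)).map' (e j).toLinearMap
        (LinearMap.ker_eq_bot.2 (e j).toRingHom.injective))
      (c := fun l => ∑ k, (c k * γ k l) • ∏ i ∈ J, e i (a k i))
      (fun l => (talg K S).sum_mem fun k _ => (talg K S).toSubalgebra.smul_mem
        ((talg K S).toSubalgebra.prod_mem fun i hi => talg_mono (by
          rintro _ ⟨l', rfl⟩; exact ⟨(i, l'), hi, rfl⟩) (halg i _)) _)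
      (by
        rw [← h0]
        simp only [Finset.prod_insert hj, Finset.sum_mul]
        rw [Finset.sum_comm]
        refine Finset.sum_congr rfl fun k _ => ?_
        rw [hak k, map_sum, Finset.sum_mul, Finset.smul_sum]
        refine Finset.sum_congr rfl fun l _ => ?_
        rw [map_smul]
        simp only [Algebra.smul_def, map_mul]; ring)
    simp only [Finset.prod_insert hj, hak, Finset.sum_mul, Finset.smul_sum]
    rw [Finset.sum_comm]
    refine Finset.sum_eq_zero fun l _ => ?_
    have h1 := ih (fun k => c k * γ k l) (congrFun hz l)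
    calc ∑ k, c k • (γ k l • (b l : N) * ∏ i ∈ J, a k i)
        = (b l : N) * ∑ k, (c k * γ k l) • ∏ i ∈ J, a k i := by
          rw [Finset.mul_sum]
          exact Finset.sum_congr rfl fun k _ => by simp only [Algebra.smul_def, map_mul]; ring
      _ = 0 := by rw [h1, mul_zero]

/-- A determinant with one row at each of independent generic points does not vanish if it does
not vanish on the diagonal. -/
theorem det_ne_zero_of_diagonal [IsAlgClosed K] [IsAlgClosed L] {N : Type u} [Field N] [Algebra K N]
    {g : ℕ} (e : Fin g → (N →ₐ[K] L)) (h : Fin g → N)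
    (halg : ∀ j z, e j z ∈ talg K (range fun l => e j (h l)))
    (hw : ∀ j l, e j (h l) ∉
      talg K ((fun q : Fin g × Fin g => e q.1 (h q.2)) '' {(j, l)}ᶜ))
    (G : Matrix (Fin g) (Fin g) N) (hG : G.det ≠ 0) :
    (Matrix.of fun j l => e j (G j l)).det ≠ 0 := by
  classical
  intro h0
  refine hG ?_
  rw [← Matrix.det_transpose, Matrix.det_apply] at h0 ⊢
  have key := sum_prod_eq_zero e h halg hw Finset.univ
    (fun (σ : Equiv.Perm (Fin g)) j => G j (σ j)) (fun σ => ((Equiv.Perm.sign σ : ℤ) : K))
    (by
      rw [← h0]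
      refine Finset.sum_congr rfl fun σ _ => ?_
      simp [Units.smul_def, Algebra.smul_def, Matrix.transpose_apply])
  rw [← key]
  refine Finset.sum_congr rfl fun σ _ => ?_
  simp [Units.smul_def, Algebra.smul_def, Matrix.transpose_apply]

end FLTAgent.AV
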