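import Fermat.Agent.AV.Const.Exists
import Fermat.Agent.AV.Const.Model
import Mathlib.FieldTheory.PrimitiveElement
import Mathlib.FieldTheory.Minpoly.Field

/-!
# Counting and extending embeddings of function fields
-/

set_option autoImplicit false
set_option linter.style.haveILetI false
set_option linter.unusedSectionVars false

noncomputable section

open Set IntermediateField FLTAgent.Curves FLTAgent.Specialization FLTAgent.Jac27.Spread
  AlgebraicCurve

namespace FLTAgent.AV

universe u

/-- Finitely many embeddings take given values on a set over which the field is finite. -/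
theorem finite_algHom_fix {E W Ω : Type u} [Field E] [Field W] [Field Ω] [Algebra E W]
    [Algebra E Ω] (M : IntermediateField E W) [FiniteDimensional M W] (T : Set W)
    (hT : M = IntermediateField.adjoin E T) (τ : W → Ω) :
    Finite {ψ : W →ₐ[E] Ω // ∀ x ∈ T, ψ x = τ x} := by
  rcases isEmpty_or_nonempty {ψ : W →ₐ[E] Ω // ∀ x ∈ T, ψ x = τ x} with h | ⟨⟨ψ₀, h₀⟩⟩
  · infer_instance
  letI : Algebra M Ω := (ψ₀.comp M.val).toRingHom.toAlgebra
  have hagree : ∀ ψ : W →ₐ[E] Ω, (∀ x ∈ T, ψ x = τ x) → ∀ z : M, ψ z = ψ₀ z := by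
    intro ψ hψ z
    subst hT
    exact DFunLike.congr_fun (IntermediateField.adjoin_algHom_ext (F := E) (s := T)
      (φ₁ := ψ.comp (IntermediateField.adjoin E T).val)
      (φ₂ := ψ₀.comp (IntermediateField.adjoin E T).val)
      fun x hx => (hψ x hx).trans (h₀ x hx).symm) z
  let f : {ψ : W →ₐ[E] Ω // ∀ x ∈ T, ψ x = τ x} → (W →ₐ[M] Ω) := fun ψ =>
    { toRingHom := ψ.1.toRingHom
      commutes' := fun z => hagree ψ.1 ψ.2 z }
  exact Finite.of_injective f fun ψ ψ' h => Subtype.ext (AlgHom.ext fun x =>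
    DFunLike.congr_fun h x)

/-- Embeddings with a prescribed transcendental value of a function are counted by its degree. -/
theorem card_algHom_eq {L F Ω : Type u} [Field L] [Field F] [Field Ω] [Algebra L F] [Algebra L Ω]
    [IsAlgClosed L] [IsAlgClosed Ω] [IsFunctionField L F] (u : F) {τ : Ω}
    (hτ : Transcendental L τ) (hsep : Transcendental L u → Algebra.IsSeparable L⟮u⟯ F) :
    (Nat.card {σ : F →ₐ[L] Ω // σ u = τ} : ℤ) = Divisor.degree (poleDiv L u) := by
  by_cases hu : Transcendental L u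
  · haveI := hsep hu
    haveI := finiteDimensional_adjoin (K := L) hu
    obtain ⟨σ₀, hσ₀⟩ := Const.exists_algHom (Ω := Ω) hu hτ
    letI : Algebra L⟮u⟯ Ω := (σ₀.comp L⟮u⟯.val).toRingHom.toAlgebra
    have hagree : ∀ σ : F →ₐ[L] Ω, σ u = τ → ∀ z : L⟮u⟯, σ z = σ₀ z := fun σ hσ z =>
      DFunLike.congr_fun (IntermediateField.adjoin_algHom_ext (F := L) (s := {u})
        (φ₁ := σ.comp L⟮u⟯.val) (φ₂ := σ₀.comp L⟮u⟯.val) fun x hx => by
          obtain rfl := Set.mem_singleton_iff.1 hx
          exact hσ.trans hσ₀.symm) z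
    let e : {σ : F →ₐ[L] Ω // σ u = τ} ≃ (F →ₐ[L⟮u⟯] Ω) :=
      { toFun := fun σ =>
          { toRingHom := σ.1.toRingHom
            commutes' := fun z => hagree σ.1 σ.2 z }
        invFun := fun φ => ⟨
          { toRingHom := φ.toRingHom
            commutes' := fun c => (φ.commutes (algebraMap L L⟮u⟯ c)).trans (σ₀.commutes c) },
          (φ.commutes ⟨u, mem_adjoin_simple_self L u⟩).trans hσ₀⟩
        left_inv := fun σ => rfl
        right_inv := fun φ => rfl }
    rw [Nat.card_congr e, Nat.card_eq_fintype_card, AlgHom.card, degree_poleDiv hu]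
  · haveI : IsEmpty {σ : F →ₐ[L] Ω // σ u = τ} := ⟨fun σ => hτ (σ.2 ▸ (not_not.1 hu).algHom σ.1)⟩
    obtain ⟨c, rfl⟩ : ∃ c, u = algebraMap L F c := by
      by_contra! hc
      exact hu (transcendental_of_ne_algebraMap hc)
    rw [Nat.card_of_isEmpty, show poleDiv L (algebraMap L F c) = 0 from Finsupp.ext fun v => by
      simp [poleDiv_apply, ord_algebraMap], map_zero, Nat.cast_zero]

section Lift

variable {L₀ L F₀ F Ω : Type u} [Field L₀] [Field L] [Field F₀] [Field F] [Field Ω]
  [Algebra L₀ L] [Algebra L₀ F₀] [Algebra L F] [Algebra L₀ F] [IsScalarTower L₀ L F]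
  [Algebra L Ω] [Algebra L₀ Ω] [IsScalarTower L₀ L Ω] [IsFunctionField L₀ F₀]
  [IsFunctionField L F] {ι : F₀ →ₐ[L₀] F} (hι : ConstExt (K := L) ι)

include hι in
/-- An embedding of an extension of the constants is determined on the smaller field. -/
theorem algHom_ext_of_constExt {σ σ' : F →ₐ[L] Ω} (h : ∀ x, σ (ι x) = σ' (ι x)) : σ = σ' := by
  have he : ∀ z : IntermediateField.adjoin L (range ι), σ z = σ' z := DFunLike.congr_fun
    (IntermediateField.adjoin_algHom_ext (F := L) (s := range ι)
      (φ₁ := σ.comp (IntermediateField.adjoin L (range ι)).val)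
      (φ₂ := σ'.comp (IntermediateField.adjoin L (range ι)).val)
      fun z hz => by obtain ⟨x, rfl⟩ := hz; exact h x)
  exact AlgHom.ext fun z => he ⟨z, hι.gen ▸ IntermediateField.mem_top⟩

include hι in
/-- An embedding with a value transcendental over the larger constants extends. -/
theorem exists_algHom_of_constExt [IsAlgClosed L₀] [IsAlgClosed L] (σ : F₀ →ₐ[L₀] Ω) {t : F₀}
    (htσ : Transcendental L (σ t)) : ∃ σ' : F →ₐ[L] Ω, ∀ x, σ' (ι x) = σ x := by
  have ht : Transcendental L₀ t := fun h => htσ ((h.algHom σ).extendScalars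
    (algebraMap L₀ L).injective)
  obtain ⟨hFF, hCE⟩ := Const.constExt_adjoin (L := L) σ ht htσ
  haveI := hFF
  let π : (⊤ : ValuationSubring L) →+* L := (⊤ : ValuationSubring L).subtype
  obtain ⟨M, -, hres⟩ := Const.exists_model ι (Const.toAdjoin (L := L) σ) hι hCE (π := π)
    (fun c => ⟨⟨c, ValuationSubring.mem_top c⟩, rfl⟩)
    (fun c => ⟨ValuationSubring.mem_top _, rfl⟩)
  have hO : ∀ f : F, f ∈ M.O := fun f => by
    rcases eq_or_ne f 0 with rfl | hf
    · exact zero_mem _
    obtain ⟨c, y, hy, hr⟩ := M.scaled f hf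
    have hc : c ≠ 0 := fun e => hy (by
      rw [e, zero_smul] at hr
      exact hr.unique M.res_zero)
    have h1 := (hr.smul ⟨c⁻¹, ValuationSubring.mem_top _⟩).mem
    rwa [show (((⟨c⁻¹, ValuationSubring.mem_top _⟩ : (⊤ : ValuationSubring L)) : L) • (c • f)) = f
      from inv_smul_smul₀ hc f] at h1
  let τ : F →ₐ[L] IntermediateField.adjoin L (range σ) :=
    { toRingHom := M.red.comp ((RingHom.id F).codRestrict M.O hO)
      commutes' := fun c => M.red_algebraMap ⟨c, ValuationSubring.mem_top c⟩ }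
  refine ⟨(IntermediateField.adjoin L (range σ)).val.comp τ, fun x => ?_⟩
  obtain ⟨h, h'⟩ := hres x
  exact congrArg Subtype.val h'

end Lift

end FLTAgent.AV
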