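import Fermat.Agent.AV.Count.Setup
import Fermat.Agent.AV.Count.Hom
import Mathlib.RingTheory.Derivation.Basic

/-!
# Finiteness and existence of solutions

All generic points over the translations are embeddings of one field, the universal one; this
field is finite separable over the values of the system.
-/

set_option autoImplicit false
set_option linter.style.haveILetI false
set_option linter.unusedSectionVars false

noncomputable section

open Set IntermediateField
open scoped TensorProduct

namespace FLTAgent.AV

universe u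

variable {K : Type u} [Field K] [IsAlgClosed K] {g : ℕ} {V : Space K g} {G : Law V} (S : Setup G)

/-- An element algebraic over an intermediate field inside a relative closure lies in it. -/
theorem mem_talg_of_algebraic {L : Type u} [Field L] [Algebra K L] [IsAlgClosed L] {T : Set L}
    {M : IntermediateField K L} (hM : M ≤ talg K T) {z : L} (hz : IsAlgebraic M z) :
    z ∈ talg K T := by
  haveI := isAlgClosed_talg (K := K) T
  by_contra h
  have h1 : Transcendental (talg K T) z :=
    FLTAgent.Curves.transcendental_of_ne_algebraMap fun c hc => h (hc ▸ c.2)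
  refine h1 ?_
  obtain ⟨q, hq, hq0⟩ := hz
  refine ⟨q.map (IntermediateField.inclusion hM).toRingHom,
    (Polynomial.map_ne_zero_iff (IntermediateField.inclusion hM).toRingHom.injective).2 hq, ?_⟩
  rw [Polynomial.aeval_def, Polynomial.eval₂_map]
  exact hq0

/-- The fraction field of a domain, with the extension of injective maps. -/
theorem exists_fraction (K : Type u) {E L T : Type u} [Field K] [Field E] [Field L] [Algebra K E]
    [Algebra E L] [CommRing T] [Algebra E T] [Algebra.EssFiniteType E T] (φ₁ : T →ₐ[E] L)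
    (hφ₁ : Function.Injective φ₁) :
    ∃ (W : Type u) (_ : Field W) (_ : Algebra K W) (_ : Algebra E W) (_ : IsScalarTower K E W)
      (_ : Algebra.EssFiniteType E W) (incl : T →ₐ[E] W),
      (∀ φ : T →ₐ[E] L, Function.Injective φ → ∃ ψ : W →ₐ[E] L, ∀ t, ψ (incl t) = φ t) ∧
      ∀ D : Derivation E W W, (∀ t, D (incl t) = 0) → ∀ y, D y = 0 := by
  haveI : IsDomain T := hφ₁.isDomain
  let W := FractionRing T
  letI : Algebra K W := ((algebraMap E W).comp (algebraMap K E)).toAlgebra
  haveI : Algebra.EssFiniteType T W := Algebra.EssFiniteType.of_isLocalization W (nonZeroDivisors T)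
  refine ⟨W, inferInstance, inferInstance, inferInstance, IsScalarTower.of_algebraMap_eq fun _ => rfl,
    Algebra.EssFiniteType.comp E T W, IsScalarTower.toAlgHom E T W, fun φ hφ =>
      ⟨IsFractionRing.liftAlgHom hφ, fun t => ?_⟩, fun D hD y => ?_⟩
  · rw [IsScalarTower.coe_toAlgHom', IsFractionRing.liftAlgHom_apply, IsFractionRing.lift_algebraMap]
    rfl
  · obtain ⟨p, q, hq, rfl⟩ := IsFractionRing.div_surjective (A := T) y
    rw [Derivation.leibniz_div, show D (algebraMap T W p) = 0 from hD p,
      show D (algebraMap T W q) = 0 from hD q]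
    simp

/-- A field containing the constants of a larger field and a given field, to which all its
linearly disjoint embeddings extend. -/
theorem exists_universal {L N : Type u} [Field L] [Algebra K L] [Field N] [Algebra K N]
    [Algebra.EssFiniteType K N] (E : IntermediateField K L) (P : (N →ₐ[K] L) → Prop)
    (hne : ∃ e, P e)
    (hinj : ∀ e, P e → ∀ {r : ℕ} (m : Fin r → N), LinearIndependent K m → ∀ c : Fin r → L,
      (∀ i, c i ∈ E) → ∑ i, c i * e (m i) = 0 → c = 0) :
    ∃ (W : Type u) (_ : Field W) (_ : Algebra K W) (_ : Algebra E W) (_ : IsScalarTower K E W)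
      (_ : Algebra.EssFiniteType E W) (incl : N →ₐ[K] W),
      (∀ e, P e → ∃ ψ : W →ₐ[E] L, ∀ m, ψ (incl m) = e m) ∧
      ∀ D : Derivation E W W, (∀ m, D (incl m) = 0) → ∀ y, D y = 0 := by
  classical
  let Φ : (N →ₐ[K] L) → (E ⊗[K] N →ₐ[E] L) := fun e =>
    Algebra.TensorProduct.lift (Algebra.ofId E L) e fun _ _ => Commute.all _ _
  have hΦ : ∀ e c m, Φ e (c ⊗ₜ m) = (c : L) * e m := fun e c m =>
    Algebra.TensorProduct.lift_tmul _ _ _ _ _
  have hΦi : ∀ e, P e → Function.Injective (Φ e) := by
    intro e he
    rw [injective_iff_map_eq_zero]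
    intro t ht
    let b := Module.Basis.ofVectorSpace K N
    obtain ⟨c, rfl⟩ := TensorProduct.eq_repr_basis_right b t
    rw [Finsupp.sum, map_sum] at ht
    simp only [hΦ] at ht
    rw [Finsupp.sum]
    refine Finset.sum_eq_zero fun i hi => ?_
    let σ := c.support.equivFin.symm
    have h0 := hinj e he (fun j => b (σ j : c.support))
      (b.linearIndependent.comp _ (Subtype.val_injective.comp σ.injective))
      (fun j => ((c (σ j : c.support) : E) : L)) (fun j => SetLike.coe_mem _)
      (by
        rw [← Finset.sum_coe_sort, ← Fintype.sum_equiv σ _ _ (fun j => rfl)] at ht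
        exact ht)
    have h2 := congrFun h0 (σ.symm ⟨i, hi⟩)
    simp only [Equiv.apply_symm_apply, Pi.zero_apply] at h2
    rw [show c i = 0 from Subtype.ext h2, TensorProduct.zero_tmul]
  obtain ⟨e₁, he₁⟩ := hne
  haveI hess : Algebra.EssFiniteType E (E ⊗[K] N) := inferInstance
  obtain ⟨W, i₁, i₂, i₃, i₄, i₅, incl, hext, hvan⟩ :=
    exists_fraction K (E := E) (L := L) (T := E ⊗[K] N) (Φ e₁) (hΦi e₁ he₁)
  refine ⟨W, i₁, i₂, i₃, i₄, i₅,
    (incl.restrictScalars K).comp Algebra.TensorProduct.includeRight, fun e he => ?_, fun D hD => hvan D ?_⟩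
  · obtain ⟨ψ, hψ⟩ := hext (Φ e) (hΦi e he)
    refine ⟨ψ, fun m => ?_⟩
    show ψ (incl (1 ⊗ₜ m)) = e m
    rw [hψ, hΦ, OneMemClass.coe_one, one_mul]
  · intro t
    induction t using TensorProduct.induction_on with
    | zero => rw [map_zero, map_zero]
    | tmul c m =>
      have e1 : (c ⊗ₜ[K] m : E ⊗[K] N) = c • ((1 : E) ⊗ₜ[K] m) := by
        rw [TensorProduct.smul_tmul', smul_eq_mul, mul_one]
      rw [e1, map_smul, Derivation.map_smul, show D (incl ((1 : E) ⊗ₜ[K] m)) = 0 from hD m,
        smul_zero]
    | add t t' h h' => rw [map_add, map_add, h, h', add_zero]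

namespace Setup

theorem exists_full : ∃ x : V.Pt S.L, S.Full x := by
  haveI := isAlgebraic_of_spans S.h_spans
  obtain ⟨e, he⟩ := exists_algHom_basis S.h_indep
    (S.indep.comp (fun l : Fin g => (l, none)) fun l l' h => congrArg Prod.fst h)
  refine ⟨Space.genPt.map e, le_of_eq_of_le S.tdim_range_X.symm (tdim_le_of_subset ?_)⟩
  rintro _ ⟨⟨j, o⟩, rfl⟩
  rcases o with _ | l
  · refine subset_talg K _ (Or.inr ?_)
    rw [show S.X (j, none) = e (S.h j) from (he j).symm, Space.Pt.vals_map, vals_genPt]
    exact ⟨_, Set.mem_univ _, rfl⟩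
  · exact subset_talg K _ (Or.inl ⟨(j, some l), Option.some_ne_none l, rfl⟩)

/-- A point witnessing full independence. -/
def base : V.Pt S.L := S.exists_full.choose

theorem base_full : S.Full S.base := S.exists_full.choose_spec

/-- The field of the translations, algebraically closed in the ambient one. -/
abbrev Eη : IntermediateField K S.L := talg K S.ηSet

/-- The universal field of generic points over the translations. -/
structure Universal where
  W : Type u
  [instField : Field W]
  [instAlgebraK : Algebra K W]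
  [instAlgebra : Algebra S.Eη W]
  [instTower : IsScalarTower K S.Eη W]
  [instEss : Algebra.EssFiniteType S.Eη W]
  pt : V.Pt W
  spec : ∀ x, S.Full x → W →ₐ[S.Eη] S.L
  map_pt : ∀ x hx, pt.map ((spec x hx).restrictScalars K) = x
  vanish : ∀ D : Derivation S.Eη W W, (∀ y ∈ pt.vals, D y = 0) → ∀ y, D y = 0

attribute [instance] Universal.instField Universal.instAlgebraK Universal.instAlgebra
  Universal.instTower Universal.instEss

theorem exists_universal' : Nonempty S.Universal := by
  haveI := V.essFiniteType
  obtain ⟨W, _, _, _, _, _, incl, hspec, hvan⟩ := exists_universal S.Eη (N := V.N)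
    (fun e => ∃ x, ∃ hx : S.Full x, ∀ m, e m = x.eval m)
    ⟨_, S.base, S.base_full, fun m => Space.Pt.evalHom_apply S.base S.base_full.gen m⟩
    (by
      rintro e ⟨x, hx, he⟩ r m hm c hc hsum
      have h1 : LinearIndependent K fun j => x.eval (m j) := by
        have h2 := hm.map' e.toLinearMap (LinearMap.ker_eq_bot.2 e.toRingHom.injective)
        simpa only [Function.comp_def, AlgHom.toLinearMap_apply, he] using h2
      refine eq_zero_of_sum_mul (fun l => x.eval (S.h l)) S.ηSet hx.notMem
        (β := fun j => x.eval (m j))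
        (fun j => Space.Pt.vals_subset_talg S.h_spans x hx.gen
          (Space.Pt.eval_mem_vals _ (hx.gen.symm ▸ Space.Pt.mem_O_gen _)))
        h1 hc ?_
      simpa only [he] using hsum)
  choose spec hspec using hspec
  have hx' : ∀ x, ∀ hx : S.Full x, ∃ y, ∃ hy : S.Full y, ∀ m, x.evalHom hx.gen m = y.eval m :=
    fun x hx => ⟨x, hx, fun m => Space.Pt.evalHom_apply x hx.gen m⟩
  refine ⟨⟨W, Space.genPt.map incl, fun x hx => spec _ (hx' x hx), fun x hx => ?_,
    fun D hD => hvan D fun m => hD _ ⟨⟨m, Space.Pt.mem_O_gen m⟩, rfl⟩⟩⟩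
  refine Space.Pt.ext_gen rfl hx.gen fun m => ?_
  rw [Space.Pt.eval_map, Space.Pt.eval_map, eval_genPt]
  exact (hspec _ (hx' x hx) m).trans (Space.Pt.evalHom_apply x hx.gen m)

/-- A chosen universal field. -/
def univ : S.Universal := Classical.choice S.exists_universal'

/-- The universal field. -/
abbrev WW : Type u := S.univ.W

/-- The universal point. -/
def univPt : V.Pt S.WW := S.univ.pt

/-- The translations in the universal field. -/
def univη (j : Fin g) : V.Pt S.WW :=
  ((S.η j).restrict S.Eη (S.η_vals_ηSet j)).map (IsScalarTower.toAlgHom K S.Eη S.WW)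

/-- The specialisation of the universal field at a generic point. -/
def spec (x : V.Pt S.L) (hx : S.Full x) : S.WW →ₐ[S.Eη] S.L := S.univ.spec x hx

theorem map_univPt (x : V.Pt S.L) (hx : S.Full x) :
    S.univPt.map ((S.spec x hx).restrictScalars K) = x := S.univ.map_pt x hx

theorem map_univη (ψ : S.WW →ₐ[S.Eη] S.L) (j : Fin g) :
    (S.univη j).map (ψ.restrictScalars K) = S.η j := by
  rw [univη, Space.Pt.map_map,
    show (ψ.restrictScalars K).comp (IsScalarTower.toAlgHom K S.Eη S.WW) = S.Eη.val from
      AlgHom.ext fun c => ψ.commutes c]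
  exact Space.Pt.map_restrict _ _ _

/-- The translated multiples of the universal point. -/
def univZ (a : Fin g → ℤ) (j : Fin g) : V.Pt S.WW :=
  letI := G.group S.WW
  a j • S.univPt + S.univη j

theorem map_univZ (a : Fin g → ℤ) (j : Fin g) (ψ : S.WW →ₐ[S.Eη] S.L) :
    letI := G.group S.L
    (S.univZ a j).map (ψ.restrictScalars K) =
      a j • S.univPt.map (ψ.restrictScalars K) + S.η j := by
  letI := G.group S.WW
  letI := G.group S.L
  rw [univZ, G.map_add, G.map_zsmul_pt, map_univη]

/-- The values of the system in the universal field. -/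
def val (a : Fin g → ℤ) (j : Fin g) : S.WW := (S.univZ a j).eval (S.h j)

theorem spec_val (a : Fin g → ℤ) (j : Fin g) (ψ : S.WW →ₐ[S.Eη] S.L) :
    letI := G.group S.L
    ψ (S.val a j) = (a j • S.univPt.map (ψ.restrictScalars K) + S.η j).eval (S.h j) := by
  rw [← map_univZ, Space.Pt.eval_map]
  rfl

theorem finite_WW (a : Fin g → ℤ) (ha : ∀ j, (a j : K) ≠ 0) :
    FiniteDimensional (IntermediateField.adjoin S.Eη (range (S.val a))) S.WW ∧
      Algebra.IsSeparable (IntermediateField.adjoin S.Eη (range (S.val a))) S.WW := by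
  refine finite_separable_of_forall _ fun D hD => ?_
  let D' : Derivation K S.WW S.WW := D.restrictScalars K
  have hgen : ∀ j, (S.univZ a j).q = V.gen := fun j => by
    have h1 := congrArg Space.Pt.q (S.map_univZ a j (S.spec _ S.base_full))
    rw [map_univPt S] at h1
    exact h1.trans (S.base_full.z_gen a j)
  have hdet : (Matrix.of fun j l => (S.univZ a j).eval (G.grad (S.h j) l)).det ≠ 0 := by
    intro h0
    letI := G.group S.L
    refine S.base_full.det a ?_
    have h1 := congrArg (S.spec _ S.base_full) h0
    rw [AlgHom.map_det, map_zero] at h1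
    refine Eq.trans (congrArg Matrix.det (Matrix.ext fun j l => ?_)) h1
    rw [AlgHom.mapMatrix_apply, Matrix.map_apply, Matrix.of_apply, Matrix.of_apply]
    have h2 := congrArg (fun p => Space.Pt.eval p (G.grad (S.h j) l))
      (S.map_univZ a j (S.spec _ S.base_full))
    simp only [map_univPt S, Space.Pt.eval_map] at h2
    exact h2.symm
  have hpt : ∀ x ∈ S.univPt.vals, D' x = 0 :=
    deriv_eq_zero_of_frame G D' S.h S.univPt S.univη a ha hgen
      (fun j x hx => by
        obtain ⟨c, hc⟩ := hx
        rw [← hc]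
        exact D.map_algebraMap _)
      (fun j => hD _ (subset_adjoin S.Eη _ ⟨j, rfl⟩)) hdet
  exact S.univ.vanish D hpt

/-- Solutions are finite in number. -/
theorem finite_sol (a : Fin g → ℤ) (ha : ∀ j, (a j : K) ≠ 0) :
    Finite {x : V.Pt S.L // S.IsSol a x} := by
  rcases isEmpty_or_nonempty {x : V.Pt S.L // S.IsSol a x} with h | ⟨⟨x₁, hx₁⟩⟩
  · infer_instance
  obtain ⟨hfd, -⟩ := S.finite_WW a ha
  haveI := finite_algHom_fix (Ω := S.L) (IntermediateField.adjoin S.Eη (range (S.val a)))
    (range (S.val a)) rfl (S.spec x₁ hx₁.full)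
  let f : {x : V.Pt S.L // S.IsSol a x} →
      {ψ : S.WW →ₐ[S.Eη] S.L // ∀ w ∈ range (S.val a), ψ w = S.spec x₁ hx₁.full w} :=
    fun x => ⟨S.spec x.1 x.2.full, by
      rintro _ ⟨j, rfl⟩
      rw [spec_val, spec_val, map_univPt, map_univPt, x.2 j, hx₁ j]⟩
  refine Finite.of_injective f fun x y h => Subtype.ext ?_
  have := congrArg (fun ψ => S.univPt.map (ψ.1.restrictScalars K)) h
  simp only [f, map_univPt] at this
  exact this

/-- Solutions exist. -/
theorem exists_sol (a : Fin g → ℤ) (ha : ∀ j, (a j : K) ≠ 0) : ∃ x, S.IsSol a x := by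
  classical
  obtain ⟨hfd, -⟩ := S.finite_WW a ha
  haveI := hfd
  haveI : Algebra.IsAlgebraic (IntermediateField.adjoin S.Eη (range (S.val a))) S.WW :=
    Algebra.IsAlgebraic.of_finite _ _
  set ψ := S.spec _ S.base_full with hψ
  set u : Fin g → S.L := fun j => ψ (S.val a j) with hu
  let w : Fin g × Option (Fin g) → S.L := fun q => q.2.elim (u q.1) fun l => S.X (q.1, some l)
  have hηw : S.ηSet = w '' {q | q.2 ≠ none} := Set.image_congr fun q hq => by
    obtain ⟨l, hl⟩ := Option.ne_none_iff_exists'.1 hq
    obtain ⟨j, o⟩ := q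
    subst hl
    rfl
  have hsub : S.ηSet ∪ range u ⊆ range w := by
    refine union_subset ?_ ?_
    · rw [hηw]; exact image_subset_range _ _
    · rintro _ ⟨j, rfl⟩; exact ⟨(j, none), rfl⟩
  let M' : IntermediateField K S.L :=
    ((IntermediateField.adjoin S.Eη (range (S.val a))).map ψ).restrictScalars K
  have hM' : M' ≤ talg K (S.ηSet ∪ range u) := by
    intro z hz
    have hz' : z ∈ IntermediateField.adjoin S.Eη (range u) := by
      rw [show range u = ψ '' range (S.val a) from range_comp _ _, ← adjoin_map]
      exact hz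
    let T : IntermediateField S.Eη S.L :=
      IntermediateField.extendScalars (F := S.Eη) (E := talg K (S.ηSet ∪ range u))
        (talg_mono subset_union_left)
    exact (adjoin_le_iff.2 (fun y hy => subset_talg K _ (Or.inr hy)) :
      IntermediateField.adjoin S.Eη (range u) ≤ T) hz'
  have hW : ∀ y : S.WW, ψ y ∈ talg K (S.ηSet ∪ range u) := fun y => by
    refine mem_talg_of_algebraic hM' ?_
    obtain ⟨q, hq, hq0⟩ :=
      (Algebra.IsAlgebraic.isAlgebraic y : IsAlgebraic (IntermediateField.adjoin S.Eη (range (S.val a))) y)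
    let e : IntermediateField.adjoin S.Eη (range (S.val a)) →+* M' :=
      (ψ.comp (IntermediateField.adjoin S.Eη (range (S.val a))).val).toRingHom.codRestrict
        M'.toSubfield fun z => ⟨z, z.2, rfl⟩
    refine ⟨q.map e, (Polynomial.map_ne_zero_iff e.injective).2 hq, ?_⟩
    have hq' := congrArg ψ hq0
    rw [Polynomial.aeval_def, ← AlgHom.coe_toRingHom, Polynomial.hom_eval₂, map_zero] at hq'
    rw [Polynomial.aeval_def, Polynomial.eval₂_map]
    exact hq'
  have hfull : ((g * g + g : ℕ) : ℕ∞) ≤ tdim K (range w) := by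
    refine S.base_full.trans (tdim_le_of_subset (union_subset
      ((subset_talg_of_subset subset_union_left).trans (talg_mono hsub)) ?_))
    rw [← map_univPt S _ S.base_full, Space.Pt.vals_map]
    rintro _ ⟨y, -, rfl⟩
    exact talg_mono hsub (hW y)
  have hw : AlgebraicIndependent K w := algebraicIndependent_of_card_le (le_of_eq_of_le (by
    simp only [Fintype.card_prod, Fintype.card_fin, Fintype.card_option, mul_add, mul_one]) hfull)
  have hdis : Disjoint {q : Fin g × Option (Fin g) | q.2 ≠ none} {q | q.2 = none} :=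
    Set.disjoint_left.2 fun q h h' => h h'
  let ν : Fin g → {q : Fin g × Option (Fin g) // q.2 = none} := fun j => ⟨(j, none), rfl⟩
  have hν : Function.Injective ν := fun j j' h => congrArg (fun q => q.1.1) h
  have hu' : AlgebraicIndependent S.Eη u := by
    have h1 := (indep_over_talg hw hdis).comp ν hν
    rw [← hηw] at h1
    exact h1
  have ht : AlgebraicIndependent S.Eη fun j => S.X (j, none) :=
    (indep_over_talg S.indep hdis).comp ν hν
  have hval : AlgebraicIndependent S.Eη (S.val a) := AlgebraicIndependent.of_comp ψ hu'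
  obtain ⟨ψ', hψ'⟩ := exists_algHom_basis hval ht
  refine ⟨S.univPt.map (ψ'.restrictScalars K), fun j => ?_⟩
  rw [← spec_val]
  exact hψ' j

end Setup

end FLTAgent.AV
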