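import Fermat.Agent.AV.Curve.Basic
import Fermat.Agent.AV.Count.Closure
import Mathlib.RingTheory.Etale.Kaehler
import Mathlib.RingTheory.Etale.Field
import Mathlib.RingTheory.Kaehler.Polynomial
import Mathlib.RingTheory.Smooth.Field
import Mathlib.RingTheory.Unramified.Field
import Mathlib.LinearAlgebra.Matrix.Nondegenerate

/-!
# A separating frame, and unramifiedness of multiplications

A separating transcendence basis of the function field has an invertible gradient; derivations
killing a multiple of a point, or the values of the frame at translated multiples, kill the point.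
-/

set_option autoImplicit false
set_option linter.style.haveILetI false
set_option linter.unusedSectionVars false

noncomputable section

open Set IntermediateField
open scoped TensorProduct

namespace FLTAgent.AV

universe u

variable {K : Type u} [Field K] {g : ℕ}

/-- Derivations separate a Kaehler module. -/
theorem subsingleton_kaehler_of_forall {F : Type u} [Field F] [Algebra K F] (M : IntermediateField K F)
    (h : ∀ D : Derivation K F F, (∀ x ∈ M, D x = 0) → ∀ y, D y = 0) : Subsingleton Ω[F⁄M] := by
  refine subsingleton_of_forall_eq 0 fun ω => ?_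
  have htop := KaehlerDifferential.span_range_derivation M F
  rw [Submodule.span_eq_bot.2 (?_ : ∀ x ∈ range (KaehlerDifferential.D M F), x = 0)] at htop
  · exact (Submodule.mem_bot F).1 (htop ▸ Submodule.mem_top)
  rintro _ ⟨y, rfl⟩
  rw [← Module.forall_dual_apply_eq_zero_iff F]
  intro φ
  let D₀ : Derivation M F F := φ.compDer (KaehlerDifferential.D M F)
  exact h (D₀.restrictScalars K) (fun x hx => D₀.map_algebraMap (⟨x, hx⟩ : M)) y

/-- An extension without derivations is finite separable. -/
theorem finite_separable_of_forall {F : Type u} [Field F] [Algebra K F] [Algebra.EssFiniteType K F]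
    (M : IntermediateField K F)
    (h : ∀ D : Derivation K F F, (∀ x ∈ M, D x = 0) → ∀ y, D y = 0) :
    FiniteDimensional M F ∧ Algebra.IsSeparable M F := by
  haveI : Algebra.FormallyUnramified M F := ⟨subsingleton_kaehler_of_forall M h⟩
  haveI : Algebra.EssFiniteType M F := Algebra.EssFiniteType.of_comp K M F
  exact ⟨Algebra.FormallyUnramified.finite_of_free M F, Algebra.FormallyUnramified.isSeparable M F⟩

/-- An extension without derivations lies in the closure of the smaller field. -/
theorem mem_talg_of_forall {F : Type u} [Field F] [Algebra K F] [Algebra.EssFiniteType K F]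
    (S : Set F) (h : ∀ D : Derivation K F F, (∀ x ∈ S, D x = 0) → ∀ y, D y = 0) (y : F) :
    y ∈ talg K S := by
  obtain ⟨hfd, -⟩ := finite_separable_of_forall (IntermediateField.adjoin K S)
    fun D hD => h D fun x hx => hD x (subset_adjoin K S hx)
  show y ∈ algebraicClosure (IntermediateField.adjoin K S) F
  rw [mem_algebraicClosure_iff]
  exact Algebra.IsAlgebraic.isAlgebraic y

variable {V : Space K g}

theorem eval_genPt (x : V.N) : (Space.genPt (V := V)).eval x = x :=
  Space.Pt.eval_of_mem _ (Space.Pt.mem_O_gen x)

theorem vals_genPt : (Space.genPt (V := V)).vals = Set.univ :=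
  eq_univ_of_forall fun x => ⟨⟨x, Space.Pt.mem_O_gen x⟩, rfl⟩

theorem le_tdim_univ : (g : ℕ∞) ≤ tdim K (Set.univ : Set V.N) := by
  rw [← le_trdeg_iff, IntermediateField.adjoin_univ, IntermediateField.topEquiv.trdeg_eq,
    V.trdeg_eq]

/-- Derivations with prescribed values at a separating basis. -/
theorem exists_derivations [PerfectField K] :
    ∃ h : Fin g → V.N, AlgebraicIndependent K h ∧ (∀ z, z ∈ talg K (range h)) ∧
      ∀ v : Fin g → V.N, ∃ D : Derivation K V.N V.N, ∀ l, D (h l) = v l := by
  haveI := V.essFiniteType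
  obtain ⟨s, hs, hsep⟩ := exists_isTranscendenceBasis_and_isSeparable_of_perfectField K V.N
  have hcard : Fintype.card s = g := by
    have h1 := hs.cardinalMk_eq_trdeg
    rw [V.trdeg_eq, Cardinal.mk_fintype] at h1
    exact Nat.cast_injective h1
  let h : Fin g → V.N := fun l => ((Fintype.equivFinOfCardEq hcard).symm l : V.N)
  have hh : AlgebraicIndependent K h := hs.1.comp _ (Equiv.injective _)
  have hrange : range h = (s : Set V.N) := by
    ext x
    exact ⟨fun ⟨l, hl⟩ => hl ▸ ((Fintype.equivFinOfCardEq hcard).symm l).2,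
      fun hx => ⟨Fintype.equivFinOfCardEq hcard ⟨x, hx⟩, by simp [h]⟩⟩
  haveI hsep' : Algebra.IsSeparable (IntermediateField.adjoin K (range h)) V.N := by
    rw [hrange]; exact hsep
  refine ⟨h, hh, fun z => ?_, fun v => ?_⟩
  · show z ∈ algebraicClosure (IntermediateField.adjoin K (range h)) V.N
    rw [mem_algebraicClosure_iff]
    exact (Algebra.IsSeparable.isIntegral (IntermediateField.adjoin K (range h)) z).isAlgebraic
  let P := MvPolynomial (Fin g) K
  let Q := FractionRing P
  let f : Q →ₐ[K] V.N := (IntermediateField.adjoin K (range h)).val.comp hh.aevalEquivField.toAlgHom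
  letI : Algebra Q V.N := f.toRingHom.toAlgebra
  haveI : Algebra.IsSeparable Q V.N :=
    Algebra.IsSeparable.of_equiv_equiv (A₁ := IntermediateField.adjoin K (range h)) (B₁ := V.N)
      hh.aevalEquivField.symm.toRingEquiv (RingEquiv.refl V.N) (RingHom.ext fun x => by
        show ((hh.aevalEquivField (hh.aevalEquivField.symm x) : IntermediateField.adjoin K (range h)) : V.N) = x
        rw [AlgEquiv.apply_symm_apply])
  letI : Algebra P V.N := (MvPolynomial.aeval h).toRingHom.toAlgebra
  haveI : IsScalarTower K P V.N := IsScalarTower.of_algebraMap_eq fun c => by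
    show algebraMap K V.N c = MvPolynomial.aeval h (algebraMap K P c)
    rw [AlgHom.commutes]
  haveI : IsScalarTower P Q V.N := IsScalarTower.of_algebraMap_eq fun p => by
    show MvPolynomial.aeval h p = ((hh.aevalEquivField (algebraMap P Q p) : IntermediateField.adjoin K (range h)) : V.N)
    rw [hh.aevalEquivField_algebraMap_apply_coe]
  haveI : Algebra.FormallyEtale P Q := Algebra.FormallyEtale.of_isLocalization (nonZeroDivisors P)
  haveI : Algebra.FormallyEtale Q V.N := Algebra.FormallyEtale.of_isSeparable Q V.N
  haveI : Algebra.FormallyEtale P V.N := Algebra.FormallyEtale.comp P Q V.N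
  let ℓ : Ω[P⁄K] →ₗ[P] V.N := (KaehlerDifferential.mvPolynomialBasis K (Fin g)).constr P v
  let φ : Ω[V.N⁄K] →ₗ[V.N] V.N := (LinearMap.liftBaseChange V.N ℓ).comp
    (KaehlerDifferential.tensorKaehlerEquivOfFormallyEtale K P V.N).symm.toLinearMap
  refine ⟨φ.compDer (KaehlerDifferential.D K V.N), fun l => ?_⟩
  have hl : h l = algebraMap P V.N (MvPolynomial.X l) := (MvPolynomial.aeval_X h l).symm
  show φ (KaehlerDifferential.D K V.N (h l)) = v l
  rw [hl]
  show LinearMap.liftBaseChange V.N ℓ
    ((KaehlerDifferential.tensorKaehlerEquivOfFormallyEtale K P V.N).symm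
      (KaehlerDifferential.D K V.N (algebraMap P V.N (MvPolynomial.X l)))) = v l
  rw [KaehlerDifferential.tensorKaehlerEquivOfFormallyEtale_symm_D_algebraMap,
    LinearMap.liftBaseChange_tmul, one_smul, ← KaehlerDifferential.mvPolynomialBasis_apply,
    Module.Basis.constr_basis]

/-- A separating basis with invertible gradient. -/
theorem exists_frame [PerfectField K] (G : Law V) :
    ∃ h : Fin g → V.N, AlgebraicIndependent K h ∧ (∀ z, z ∈ talg K (range h)) ∧
      (Matrix.of fun j l => G.grad (h j) l).det ≠ 0 := by
  classical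
  obtain ⟨h, hh, halg, hD⟩ := exists_derivations (V := V)
  choose D hDl using fun m : Fin g => hD (Pi.single m 1)
  refine ⟨h, hh, halg, ?_⟩
  letI := G.group V.N
  have key : (Matrix.of fun j l => G.grad (h j) l) *
      (Matrix.of fun l m => G.dlog V.N (D m) Space.genPt l) = 1 := by
    ext j m
    have h1 := G.grad_spec (D m) Space.genPt (h j) rfl
    rw [eval_genPt, hDl] at h1
    rw [Matrix.mul_apply, Matrix.one_apply, ← Pi.single_apply m (1 : V.N) j, h1]
    exact Finset.sum_congr rfl fun i _ => by rw [eval_genPt]; rfl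
  intro h0
  have := congrArg Matrix.det key
  rw [Matrix.det_mul, h0, zero_mul, Matrix.det_one] at this
  exact zero_ne_one this

variable (G : Law V)

theorem dlog_of_vals {L : Type u} [Field L] [Algebra K L] (D : Derivation K L L) (p : V.Pt L) :
    letI := G.group L
    G.dlog L D p = 0 ↔ ∀ x ∈ p.vals, D x = 0 :=
  letI := G.group L
  (G.dlog_eq_zero D p).trans
    ⟨fun h x ⟨a, ha⟩ => ha ▸ h a, fun h a => h _ ⟨a, rfl⟩⟩

/-- A derivation killing a multiple of a point kills the point. -/
theorem deriv_eq_zero_of_zsmul {L : Type u} [Field L] [Algebra K L] (D : Derivation K L L)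
    (p : V.Pt L) {a : ℤ} (ha : (a : K) ≠ 0)
    (h : letI := G.group L; ∀ x ∈ (a • p).vals, D x = 0) : ∀ x ∈ p.vals, D x = 0 := by
  letI := G.group L
  refine (dlog_of_vals G D p).1 ?_
  have h1 := (dlog_of_vals G D (a • p)).2 h
  rw [map_zsmul] at h1
  funext i
  have h2 : a • G.dlog L D p i = 0 := congrFun h1 i
  rw [zsmul_eq_mul] at h2
  refine (mul_eq_zero.1 h2).resolve_left ?_
  rw [← map_intCast (algebraMap K L)]
  exact (_root_.map_ne_zero _).2 ha

/-- A derivation killing the translations and the values of the frame at translated multiples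
kills the point, when the gradient there is invertible. -/
theorem deriv_eq_zero_of_frame {L : Type u} [Field L] [Algebra K L] (D : Derivation K L L)
    (h : Fin g → V.N) (p : V.Pt L) (q : Fin g → V.Pt L) (a : Fin g → ℤ)
    (ha : ∀ j, (a j : K) ≠ 0)
    (hgen : letI := G.group L; ∀ j, (a j • p + q j).q = V.gen)
    (hq : ∀ j, ∀ x ∈ (q j).vals, D x = 0)
    (hu : letI := G.group L; ∀ j, D ((a j • p + q j).eval (h j)) = 0)
    (hdet : letI := G.group L
      (Matrix.of fun j l => (a j • p + q j).eval (G.grad (h j) l)).det ≠ 0) :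
    ∀ x ∈ p.vals, D x = 0 := by
  letI := G.group L
  refine (dlog_of_vals G D p).1 (Matrix.eq_zero_of_mulVec_eq_zero hdet ?_)
  funext j
  have h1 := G.grad_spec D (a j • p + q j) (h j) (hgen j)
  rw [hu j, map_add, map_zsmul, (dlog_of_vals G D (q j)).2 (hq j), add_zero] at h1
  have h2 : (∑ i, (a j • p + q j).eval (G.grad (h j) i) * G.dlog L D p i) * (a j : L) = 0 := by
    rw [Finset.sum_mul]
    refine Eq.trans (Finset.sum_congr rfl fun i _ => ?_) h1.symm
    rw [Pi.smul_apply, zsmul_eq_mul]
    ring
  rw [Pi.zero_apply, Matrix.mulVec, dotProduct]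
  refine (mul_eq_zero.1 h2).resolve_right ?_
  rw [← map_intCast (algebraMap K L)]
  exact (_root_.map_ne_zero _).2 (ha j)

/-- Multiples of the generic point: the function field is algebraic over their values. -/
theorem zsmul_genPt {a : ℤ} (ha : (a : K) ≠ 0) :
    letI := G.group V.N
    (a • Space.genPt (V := V)).q = V.gen ∧
      ∀ z : V.N, z ∈ talg K (a • Space.genPt (V := V)).vals := by
  letI := G.group V.N
  haveI := V.essFiniteType
  have h1 : ∀ z : V.N, z ∈ talg K (a • Space.genPt (V := V)).vals :=
    mem_talg_of_forall _ fun D hD y =>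
      deriv_eq_zero_of_zsmul G D Space.genPt ha hD y ⟨⟨y, Space.Pt.mem_O_gen y⟩, rfl⟩
  exact ⟨G.q_eq_gen _ (Space.Pt.dimGE_of_tdim (E := K) (a • Space.genPt (V := V))
    ((le_tdim_univ (V := V)).trans (tdim_le_of_subset (E := K) fun z _ => h1 z))), h1⟩

end FLTAgent.AV
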