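import Fermat.Agent.AV.Count.Setup

/-!
# Multiplying all multipliers

Solutions for a multiple of the multipliers are the preimages of solutions, so their number is
multiplied by the number of torsion points.
-/

set_option autoImplicit false
set_option linter.style.haveILetI false
set_option linter.unusedSectionVars false

noncomputable section

open Set IntermediateField

namespace FLTAgent.AV

universe u

variable {K : Type u} [Field K] [IsAlgClosed K] {g : ℕ} {V : Space K g} (G : Law V)

/-- Generic points are multiples. -/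
theorem exists_zsmul_eq {L : Type u} [Field L] [Algebra K L] [IsAlgClosed L] {a : ℤ}
    (ha : (a : K) ≠ 0) (y : V.Pt L) (hy : y.q = V.gen) :
    letI := G.group L
    ∃ x : V.Pt L, a • x = y := by
  letI := G.group L
  letI := G.group V.N
  obtain ⟨hν, halg⟩ := zsmul_genPt G ha
  set ν := a • Space.genPt (V := V)
  set τ := ν.evalHom hν
  let f : τ.fieldRange →ₐ[K] L :=
    (y.evalHom hy).comp (AlgEquiv.ofInjectiveField τ).symm.toAlgHom
  letI : Algebra τ.fieldRange L := f.toRingHom.toAlgebra
  haveI : Algebra.IsAlgebraic τ.fieldRange V.N := by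
    refine ⟨fun z => ?_⟩
    have h1 : IsAlgebraic (IntermediateField.adjoin K ν.vals) z := mem_algebraicClosure_iff.1 (halg z)
    have hle : IntermediateField.adjoin K ν.vals ≤ τ.fieldRange := by
      refine adjoin_le_iff.2 ?_
      rw [Space.Pt.vals_of_gen ν hν]
      exact fun x hx => hx
    obtain ⟨q, hq, hq0⟩ := h1
    refine ⟨q.map (IntermediateField.inclusion hle).toRingHom,
      (Polynomial.map_ne_zero_iff (IntermediateField.inclusion hle).toRingHom.injective).2 hq, ?_⟩
    rw [Polynomial.aeval_def, Polynomial.eval₂_map]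
    exact hq0
  let j : V.N →ₐ[τ.fieldRange] L := IsAlgClosed.lift
  let e : V.N →ₐ[K] L :=
    { toRingHom := j.toRingHom
      commutes' := fun c => (j.commutes (algebraMap K τ.fieldRange c)).trans (f.commutes c) }
  refine ⟨Space.genPt.map e, ?_⟩
  rw [← G.map_zsmul_pt]
  refine Space.Pt.ext_gen hν hy fun m => ?_
  rw [Space.Pt.eval_map, ← Space.Pt.evalHom_apply ν hν, ← Space.Pt.evalHom_apply y hy]
  show j (algebraMap τ.fieldRange V.N ((AlgEquiv.ofInjectiveField τ) m)) = _
  refine (j.commutes _).trans ?_
  show y.evalHom hy ((AlgEquiv.ofInjectiveField τ).symm (AlgEquiv.ofInjectiveField τ m)) = _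
  rw [AlgEquiv.symm_apply_apply]

namespace Setup

variable {G} (S : Setup G)

theorem isSol_mul (n : ℤ) (a : Fin g → ℤ) (x : V.Pt S.L) :
    letI := G.group S.L
    S.IsSol (fun j => n * a j) x ↔ S.IsSol a (n • x) := by
  letI := G.group S.L
  refine forall_congr' fun j => ?_
  simp only [smul_smul, mul_comm n]

/-- The number of solutions for a multiple. -/
theorem card_sol_mul {n : ℤ} (hn : (n : K) ≠ 0) (a : Fin g → ℤ) :
    letI := G.group S.L
    Nat.card {x : V.Pt S.L // S.IsSol (fun j => n * a j) x} =
      Nat.card {p : V.Pt S.L // n • p = 0} * Nat.card {x : V.Pt S.L // S.IsSol a x} := by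
  letI := G.group S.L
  choose s hs using fun y : {x : V.Pt S.L // S.IsSol a x} =>
    exists_zsmul_eq G hn y.1 (IsSol.full y.2).gen
  let e : {x : V.Pt S.L // S.IsSol (fun j => n * a j) x} ≃
      {p : V.Pt S.L // n • p = 0} × {x : V.Pt S.L // S.IsSol a x} :=
    { toFun := fun x =>
        (⟨x.1 - s ⟨n • x.1, (S.isSol_mul n a x.1).1 x.2⟩, by rw [smul_sub, hs, sub_self]⟩,
          ⟨n • x.1, (S.isSol_mul n a x.1).1 x.2⟩)
      invFun := fun py => ⟨py.1.1 + s py.2, (S.isSol_mul n a _).2 (by
        rw [smul_add, py.1.2, zero_add, hs]; exact py.2.2)⟩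
      left_inv := fun x => Subtype.ext (sub_add_cancel _ _)
      right_inv := fun py => by
        have h1 : n • (py.1.1 + s py.2) = py.2.1 := by rw [smul_add, py.1.2, zero_add, hs]
        have h2 : ∀ h, (⟨n • (py.1.1 + s py.2), h⟩ : {x : V.Pt S.L // S.IsSol a x}) = py.2 :=
          fun h => Subtype.ext h1
        refine Prod.ext (Subtype.ext ?_) (h2 _)
        simp only [h2, add_sub_cancel_right] }
  rw [Nat.card_congr e, Nat.card_prod]

end Setup

end FLTAgent.AV
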