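import Fermat.Agent.AV.Count.Disjoint
import Fermat.Agent.AV.Count.Frame

/-!
# Independent parameters and generic solutions

Independent generic translations and values, and the solutions of the system which prescribes
one frame function at each translated multiple.
-/

set_option autoImplicit false
set_option linter.style.haveILetI false
set_option linter.unusedSectionVars false

noncomputable section

open Set IntermediateField

namespace FLTAgent.AV

universe u

variable {K : Type u} [Field K] {g : ℕ} {V : Space K g}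

theorem map_mem_talg {A B : Type u} [Field A] [Field B] [Algebra K A] [Algebra K B] (e : A →ₐ[K] B)
    {S : Set A} {z : A} (hz : z ∈ talg K S) : e z ∈ talg K (e '' S) := by
  have h1 : IsAlgebraic (IntermediateField.adjoin K S) z := mem_algebraicClosure_iff.1 hz
  show e z ∈ algebraicClosure (IntermediateField.adjoin K (e '' S)) B
  rw [mem_algebraicClosure_iff]
  have hle : ∀ y : IntermediateField.adjoin K S, e y ∈ IntermediateField.adjoin K (e '' S) :=
    fun y => adjoin_map K S e ▸ ⟨y, y.2, rfl⟩
  let τ : IntermediateField.adjoin K S →+* IntermediateField.adjoin K (e '' S) :=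
    (e.comp (IntermediateField.adjoin K S).val).toRingHom.codRestrict
      (IntermediateField.adjoin K (e '' S)).toSubfield hle
  obtain ⟨p, hp0, hp⟩ := h1
  refine ⟨p.map τ, (Polynomial.map_ne_zero_iff τ.injective).2 hp0, ?_⟩
  have hp' := congrArg e hp
  rw [Polynomial.aeval_def, ← AlgHom.coe_toRingHom, Polynomial.hom_eval₂, map_zero] at hp'
  rw [Polynomial.aeval_def, Polynomial.eval₂_map]
  exact hp'

/-- A field algebraic over an independent family has an embedding with prescribed independent
values. -/
theorem exists_algHom_basis {E N L : Type u} [Field E] [Field N] [Field L] [Algebra E N]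
    [Algebra E L] [IsAlgClosed L] {ι : Type*} {h : ι → N} (hh : AlgebraicIndependent E h)
    [Algebra.IsAlgebraic (IntermediateField.adjoin E (range h)) N] {τ : ι → L}
    (hτ : AlgebraicIndependent E τ) : ∃ e : N →ₐ[E] L, ∀ i, e (h i) = τ i := by
  let f : IntermediateField.adjoin E (range h) →ₐ[E] L :=
    (IntermediateField.adjoin E (range τ)).val.comp
      (hτ.aevalEquivField.toAlgHom.comp hh.aevalEquivField.symm.toAlgHom)
  have hf : ∀ i, f ⟨h i, subset_adjoin E _ ⟨i, rfl⟩⟩ = τ i := fun i => by
    have e1 : hh.aevalEquivField (algebraMap _ _ (MvPolynomial.X i)) =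
        ⟨h i, subset_adjoin E _ ⟨i, rfl⟩⟩ := Subtype.ext (by
      rw [hh.aevalEquivField_algebraMap_apply_coe, MvPolynomial.aeval_X])
    show ((hτ.aevalEquivField (hh.aevalEquivField.symm _) : IntermediateField.adjoin E (range τ)) : L) = _
    rw [← e1, AlgEquiv.symm_apply_apply, hτ.aevalEquivField_algebraMap_apply_coe,
      MvPolynomial.aeval_X]
  letI : Algebra (IntermediateField.adjoin E (range h)) L := f.toRingHom.toAlgebra
  let j : N →ₐ[IntermediateField.adjoin E (range h)] L := IsAlgClosed.lift
  refine ⟨{ toRingHom := j.toRingHom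
            commutes' := fun c => ?_ }, fun i => ?_⟩
  · show j (algebraMap (IntermediateField.adjoin E (range h)) N (algebraMap E _ c)) = _
    rw [j.commutes]
    exact f.commutes c
  · show j (algebraMap (IntermediateField.adjoin E (range h)) N ⟨h i, subset_adjoin E _ ⟨i, rfl⟩⟩) = _
    rw [j.commutes]
    exact hf i

namespace Space.Pt

variable {L : Type u} [Field L] [Algebra K L]

theorem map_injective {L' : Type u} [Field L'] [Algebra K L'] (σ : L →ₐ[K] L') :
    Function.Injective (Space.Pt.map (V := V) σ) := by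
  rintro ⟨q, φ, hu⟩ ⟨q', φ', hu'⟩ h
  obtain rfl : q = q' := congrArg Space.Pt.q h
  simp only [Space.Pt.map, Space.Pt.mk.injEq, heq_eq_eq, true_and] at h
  have h2 : φ = φ' := AlgHom.ext fun a => σ.toRingHom.injective (DFunLike.congr_fun h a)
  subst h2
  rfl

theorem ext_gen {p p' : V.Pt L} (hp : p.q = V.gen) (hp' : p'.q = V.gen)
    (h : ∀ x, p.eval x = p'.eval x) : p = p' := by
  obtain ⟨q, φ, hu⟩ := p
  obtain ⟨q', φ', hu'⟩ := p'
  subst hp hp'
  have h2 : φ = φ' := AlgHom.ext fun a => by
    have := h a
    rwa [eval_of_mem _ a.2, eval_of_mem _ a.2] at this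
  subst h2
  rfl

theorem vals_of_gen (p : V.Pt L) (hp : p.q = V.gen) : p.vals = range (p.evalHom hp) := by
  ext x
  constructor
  · rintro ⟨a, rfl⟩
    exact ⟨a, by rw [evalHom_apply, eval_of_mem p a.2]⟩
  · rintro ⟨a, rfl⟩
    rw [evalHom_apply]
    exact eval_mem_vals p (hp.symm ▸ mem_O_gen a)

theorem vals_subset_talg {h : Fin g → V.N} (halg : ∀ z, z ∈ talg K (range h)) (p : V.Pt L)
    (hp : p.q = V.gen) : p.vals ⊆ talg K (range fun l => p.eval (h l)) := by
  rw [vals_of_gen p hp]
  rintro _ ⟨z, rfl⟩
  have h1 := map_mem_talg (p.evalHom hp) (halg z)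
  rw [← range_comp] at h1
  simp only [Function.comp_def, evalHom_apply] at h1 ⊢
  exact h1

end Space.Pt

theorem Law.map_zsmul_pt (G : Law V) {L L' : Type u} [Field L] [Algebra K L] [Field L']
    [Algebra K L'] (σ : L →ₐ[K] L') (p : V.Pt L) (a : ℤ) :
    letI := G.group L; letI := G.group L'
    (a • p).map σ = a • p.map σ := by
  letI := G.group L; letI := G.group L'
  exact map_zsmul (G.mapHom σ) a p

/-- The parameters: a frame, generic translations and values, all independent. -/
structure Setup (G : Law V) where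
  L : Type u
  [instField : Field L]
  [instAlgebra : Algebra K L]
  [instClosed : IsAlgClosed L]
  X : Fin g × Option (Fin g) → L
  indep : AlgebraicIndependent K X
  spans : ∀ z, z ∈ talg K (range X)
  h : Fin g → V.N
  h_indep : AlgebraicIndependent K h
  h_spans : ∀ z, z ∈ talg K (range h)
  det_grad : (Matrix.of fun j l => G.grad (h j) l).det ≠ 0
  η : Fin g → V.Pt L
  η_gen : ∀ j, (η j).q = V.gen
  η_eval : ∀ j l, (η j).eval (h l) = X (j, some l)

attribute [instance] Setup.instField Setup.instAlgebra Setup.instClosed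

theorem isAlgebraic_of_spans {N : Type u} [Field N] [Algebra K N] {ι : Type*} {h : ι → N}
    (hs : ∀ z, z ∈ talg K (range h)) :
    Algebra.IsAlgebraic (IntermediateField.adjoin K (range h)) N :=
  ⟨fun z => mem_algebraicClosure_iff.1 (hs z)⟩

theorem exists_setup [IsAlgClosed K] (G : Law V) : Nonempty (Setup G) := by
  obtain ⟨h, hh, halg, hdet⟩ := exists_frame G
  let P := MvPolynomial (Fin g × Option (Fin g)) K
  let W := AlgebraicClosure (FractionRing P)
  let X : Fin g × Option (Fin g) → W := fun i => algebraMap (FractionRing P) W (algebraMap P _ (MvPolynomial.X i))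
  have hX : AlgebraicIndependent K X :=
    (MvPolynomial.algebraicIndependent_X _ K).map'
      (f := (IsScalarTower.toAlgHom K (FractionRing P) W).comp (IsScalarTower.toAlgHom K P (FractionRing P)))
      ((algebraMap (FractionRing P) W).injective.comp (IsFractionRing.injective P (FractionRing P)))
  have hspan : ∀ z, z ∈ talg K (range X) := by
    intro z
    haveI := isAlgClosed_talg (K := K) (range X)
    have hP : ∀ p : P, algebraMap (FractionRing P) W (algebraMap P _ p) ∈
        IntermediateField.adjoin K (range X) := fun p => by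
      induction p using MvPolynomial.induction_on with
      | C c =>
        rw [show (MvPolynomial.C c : P) = algebraMap K P c from rfl, ← IsScalarTower.algebraMap_apply,
          ← IsScalarTower.algebraMap_apply]
        exact IntermediateField.algebraMap_mem _ c
      | add p q hp hq => rw [map_add, map_add]; exact add_mem hp hq
      | mul_X p i hp =>
        rw [map_mul, map_mul]
        exact mul_mem hp (IntermediateField.subset_adjoin K _ ⟨i, rfl⟩)
    have hQ : ∀ q : FractionRing P, algebraMap (FractionRing P) W q ∈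
        IntermediateField.adjoin K (range X) := fun q => by
      obtain ⟨a, b, -, rfl⟩ := IsFractionRing.div_surjective (A := P) q
      rw [map_div₀]
      exact div_mem (hP a) (hP b)
    show z ∈ algebraicClosure (IntermediateField.adjoin K (range X)) W
    rw [mem_algebraicClosure_iff]
    obtain ⟨p, hp0, hp⟩ := (Algebra.IsAlgebraic.isAlgebraic (R := FractionRing P) z)
    let f : FractionRing P →+* IntermediateField.adjoin K (range X) :=
      (algebraMap (FractionRing P) W).codRestrict (IntermediateField.adjoin K (range X)).toSubfield hQ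
    refine ⟨p.map f, (Polynomial.map_ne_zero_iff f.injective).2 hp0, ?_⟩
    rw [Polynomial.aeval_def, Polynomial.eval₂_map]
    exact hp
  haveI := isAlgebraic_of_spans halg
  choose e he using fun j : Fin g => exists_algHom_basis hh
    (hX.comp (fun l : Fin g => (j, some l)) fun l l' e => Option.some_injective _ (congrArg Prod.snd e))
  refine ⟨⟨W, X, hX, hspan, h, hh, halg, hdet, fun j => Space.genPt.map (e j), fun j => rfl,
    fun j l => ?_⟩⟩
  rw [Space.Pt.eval_map, eval_genPt]
  exact he j l

namespace Setup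

variable {G : Law V} (S : Setup G)

/-- The coordinates of the translations. -/
def ηSet : Set S.L := S.X '' {q | q.2 ≠ none}

/-- The system of equations with multipliers `a`. -/
def IsSol (a : Fin g → ℤ) (x : V.Pt S.L) : Prop :=
  letI := G.group S.L
  ∀ j, (a j • x + S.η j).eval (S.h j) = S.X (j, none)

/-- The translations and the point together are as independent as possible. -/
def Full (x : V.Pt S.L) : Prop := ((g * g + g : ℕ) : ℕ∞) ≤ tdim K (S.ηSet ∪ x.vals)

theorem tdim_range_X : tdim K (range S.X) = (g * g + g : ℕ) := by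
  rw [← image_univ, indep_tdim_image S.indep, encard_univ, ENat.card_eq_coe_fintype_card]
  simp only [Fintype.card_prod, Fintype.card_fin, Fintype.card_option, mul_add, mul_one]

theorem tdim_ηSet : tdim K S.ηSet ≤ (g * g : ℕ) := by
  classical
  rw [ηSet, indep_tdim_image S.indep]
  have : {q : Fin g × Option (Fin g) | q.2 ≠ none} =
      range fun q : Fin g × Fin g => (q.1, some q.2) := by
    ext ⟨j, o⟩
    cases o <;> simp
  rw [this, ← image_univ]
  refine (encard_image_le _ _).trans (le_of_eq ?_)
  rw [encard_univ, ENat.card_eq_coe_fintype_card]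
  simp

theorem η_vals (j : Fin g) : (S.η j).vals ⊆ talg K (S.X '' {q | q.1 = j ∧ q.2 ≠ none}) := by
  refine (Space.Pt.vals_subset_talg S.h_spans _ (S.η_gen j)).trans (talg_mono ?_)
  rintro _ ⟨l, rfl⟩
  exact ⟨(j, some l), ⟨rfl, Option.some_ne_none l⟩, (S.η_eval j l).symm⟩

theorem η_vals_ηSet (j : Fin g) : (S.η j).vals ⊆ talg K S.ηSet :=
  (S.η_vals j).trans (talg_mono (image_mono fun _ hq => hq.2))

theorem vals_z (a : ℤ) (x : V.Pt S.L) (j : Fin g) {T : Set S.L} (hx : x.vals ⊆ talg K T)
    (hη : (S.η j).vals ⊆ talg K T) :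
    letI := G.group S.L
    (a • x + S.η j).vals ⊆ talg K T :=
  letI := G.group S.L
  G.vals_add (G.vals_zsmul hx a) hη

variable {S} {x : V.Pt S.L} {a : Fin g → ℤ}

theorem Full.tdim_le (hx : S.Full x) : (g : ℕ∞) ≤ tdim K x.vals := by
  have h1 := hx.trans ((tdim_union_le K _ _).trans (add_le_add S.tdim_ηSet le_rfl))
  rw [Nat.cast_add] at h1
  exact (ENat.add_le_add_iff_left (ENat.natCast_ne_top _)).1 h1

theorem Full.gen (hx : S.Full x) : x.q = V.gen :=
  G.q_eq_gen _ (Space.Pt.dimGE_of_tdim (E := K) x hx.tdim_le)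

theorem tdim_vals_le {p : V.Pt S.L} (hp : p.q = V.gen) : tdim K p.vals ≤ (g : ℕ) := by
  refine (tdim_le_of_subset (Space.Pt.vals_subset_talg S.h_spans p hp)).trans
    ((tdim_le_encard K _).trans ?_)
  rw [← image_univ]
  refine (encard_image_le _ _).trans (le_of_eq ?_)
  rw [encard_univ, ENat.card_eq_coe_fintype_card, Fintype.card_fin]

theorem Full.z_gen (hx : S.Full x) (a : Fin g → ℤ) (j : Fin g) :
    letI := G.group S.L
    (a j • x + S.η j).q = V.gen := by
  letI := G.group S.L
  classical
  set z := a j • x + S.η j with hz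
  set R := S.X '' {q | q.1 ≠ j ∧ q.2 ≠ none}
  set T := x.vals ∪ z.vals ∪ R
  have hxT : x.vals ⊆ talg K T := subset_talg_of_subset (subset_union_of_subset_left subset_union_left _)
  have hzT : z.vals ⊆ talg K T :=
    subset_talg_of_subset (subset_union_of_subset_left subset_union_right _)
  have hη : (S.η j).vals ⊆ talg K T := by
    have h1 := G.vals_add hzT (G.vals_neg (G.vals_zsmul hxT (a j)))
    rwa [hz, add_comm (a j • x), add_neg_cancel_right] at h1
  have hall : S.ηSet ∪ x.vals ⊆ talg K T := by
    refine union_subset ?_ hxT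
    rintro _ ⟨⟨i, o⟩, ho, rfl⟩
    obtain ⟨l, rfl⟩ := Option.ne_none_iff_exists'.1 ho
    by_cases hi : i = j
    · subst hi
      rw [← S.η_eval i l]
      exact hη (Space.Pt.eval_mem_vals _ ((S.η_gen i).symm ▸ Space.Pt.mem_O_gen _))
    · exact subset_talg K _ (Or.inr ⟨(i, some l), ⟨hi, Option.some_ne_none l⟩, rfl⟩)
  have hR : tdim K R ≤ ((g - 1) * g : ℕ) := by
    refine (tdim_le_encard K _).trans ((encard_image_le _ _).trans ?_)
    have : {q : Fin g × Option (Fin g) | q.1 ≠ j ∧ q.2 ≠ none} =
        ↑(((Finset.univ.erase j) ×ˢ (Finset.univ : Finset (Fin g))).image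
          fun q : Fin g × Fin g => (q.1, some q.2)) := by
      ext ⟨i, o⟩
      cases o <;> simp
    rw [this, encard_coe_eq_coe_finsetCard, Nat.cast_le]
    refine Finset.card_image_le.trans (le_of_eq ?_)
    rw [Finset.card_product, Finset.card_erase_of_mem (Finset.mem_univ j), Finset.card_univ,
      Fintype.card_fin]
  have h1 : ((g * g + g : ℕ) : ℕ∞) ≤ (g : ℕ) + tdim K z.vals + ((g - 1) * g : ℕ) :=
    hx.trans ((tdim_le_of_subset hall).trans ((tdim_union_le K _ _).trans
      (add_le_add ((tdim_union_le K _ _).trans (add_le_add (tdim_vals_le hx.gen) le_rfl)) hR)))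
  refine G.q_eq_gen _ (Space.Pt.dimGE_of_tdim (E := K) z ?_)
  revert h1
  induction tdim K z.vals using ENat.recTopCoe with
  | top => exact fun _ => le_top
  | coe d =>
    intro h1
    have h2 : g * g + g ≤ g + d + (g - 1) * g := by
      rw [show (g : ℕ∞) + (d : ℕ∞) + (((g - 1) * g : ℕ) : ℕ∞) = ((g + d + (g - 1) * g : ℕ) : ℕ∞) by
        push_cast; rfl] at h1
      exact_mod_cast h1
    obtain ⟨g', rfl⟩ : ∃ g', g = g' + 1 := ⟨g - 1, by have := j.2; omega⟩
    simp only [Nat.add_sub_cancel] at h2
    exact_mod_cast (show g' + 1 ≤ d by nlinarith)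

theorem Full.notMem (hx : S.Full x) (l : Fin g) :
    x.eval (S.h l) ∉ talg K (S.ηSet ∪ (fun i => x.eval (S.h i)) '' {l}ᶜ) := by
  classical
  intro hl
  set T := S.ηSet ∪ (fun i => x.eval (S.h i)) '' {l}ᶜ
  have hall : S.ηSet ∪ x.vals ⊆ talg K T := by
    refine union_subset (subset_talg_of_subset subset_union_left) ?_
    refine (Space.Pt.vals_subset_talg S.h_spans x hx.gen).trans (talg_le ?_)
    rintro _ ⟨i, rfl⟩
    by_cases hi : i = l
    · exact hi ▸ hl
    · exact subset_talg K _ (Or.inr ⟨i, hi, rfl⟩)
  have h2 : ((fun i => x.eval (S.h i)) '' {l}ᶜ).encard ≤ (g - 1 : ℕ) := by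
    refine (encard_image_le _ _).trans (le_of_eq ?_)
    rw [show ({l}ᶜ : Set (Fin g)) = ↑((Finset.univ : Finset (Fin g)).erase l) by ext; simp,
      encard_coe_eq_coe_finsetCard, Finset.card_erase_of_mem (Finset.mem_univ l), Finset.card_univ,
      Fintype.card_fin]
  have h1 : ((g * g + g : ℕ) : ℕ∞) ≤ (g * g : ℕ) + (g - 1 : ℕ) :=
    hx.trans ((tdim_le_of_subset hall).trans ((tdim_union_le K _ _).trans
      (add_le_add S.tdim_ηSet ((tdim_le_encard K _).trans h2))))
  have h3 : g * g + g ≤ g * g + (g - 1) := by exact_mod_cast h1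
  have := l.2
  omega

theorem Full.det (hx : S.Full x) [IsAlgClosed K] (a : Fin g → ℤ) :
    letI := G.group S.L
    (Matrix.of fun j l => (a j • x + S.η j).eval (G.grad (S.h j) l)).det ≠ 0 := by
  letI := G.group S.L
  classical
  set e := fun j => (a j • x + S.η j).evalHom (hx.z_gen a j)
  set w : Fin g × Fin g → S.L := fun q => e q.1 (S.h q.2) with hw
  have hz : ∀ j, (a j • x + S.η j).vals ⊆ talg K (range w) := fun j => by
    refine (Space.Pt.vals_subset_talg S.h_spans _ (hx.z_gen a j)).trans (talg_mono ?_)
    rintro _ ⟨l, rfl⟩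
    exact ⟨(j, l), Space.Pt.evalHom_apply _ _ _⟩
  have hall : S.ηSet ∪ x.vals ⊆ talg K (x.vals ∪ range w) := by
    refine union_subset ?_ (subset_talg_of_subset subset_union_left)
    rintro _ ⟨⟨i, o⟩, ho, rfl⟩
    obtain ⟨l, rfl⟩ := Option.ne_none_iff_exists'.1 ho
    have h1 := G.vals_add (E := talg K (x.vals ∪ range w))
      ((hz i).trans (talg_mono subset_union_right))
      (G.vals_neg (G.vals_zsmul (subset_talg_of_subset subset_union_left) (a i)))
    rw [add_comm (a i • x), add_neg_cancel_right] at h1
    rw [← S.η_eval i l]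
    exact h1 (Space.Pt.eval_mem_vals _ ((S.η_gen i).symm ▸ Space.Pt.mem_O_gen _))
  have h1 : ((g * g + g : ℕ) : ℕ∞) ≤ (g : ℕ) + tdim K (range w) :=
    hx.trans ((tdim_le_of_subset hall).trans
      ((tdim_union_le K _ _).trans (add_le_add (tdim_vals_le hx.gen) le_rfl)))
  have hcard : (Fintype.card (Fin g × Fin g) : ℕ∞) ≤ tdim K (range w) := by
    rw [Nat.cast_add, add_comm] at h1
    simpa using (ENat.add_le_add_iff_left (ENat.natCast_ne_top g)).1 h1
  have := det_ne_zero_of_diagonal e S.h
    (fun j z => by
      have := map_mem_talg (e j) (S.h_spans z)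
      rwa [← range_comp] at this)
    (fun j l => notMem_talg_of_card_le w hcard (j, l))
    (Matrix.of fun j l => G.grad (S.h j) l) S.det_grad
  intro h0
  refine this (Eq.trans (congrArg Matrix.det (Matrix.ext fun j l => ?_)) h0)
  exact Space.Pt.evalHom_apply (a j • x + S.η j) (hx.z_gen a j) (G.grad (S.h j) l)

theorem IsSol.full (hx : S.IsSol a x) : S.Full x := by
  letI := G.group S.L
  refine le_of_eq_of_le S.tdim_range_X.symm (tdim_le_of_subset ?_)
  rintro _ ⟨⟨j, o⟩, rfl⟩
  rcases o with _ | l
  · have hne : S.X (j, none) ≠ 0 := S.indep.ne_zero _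
    rw [← hx j]
    refine S.vals_z (a j) x j (subset_talg_of_subset subset_union_right)
      ((S.η_vals_ηSet j).trans (talg_mono subset_union_left)) ?_
    by_cases hm : S.h j ∈ V.O (a j • x + S.η j).q
    · exact Space.Pt.eval_mem_vals _ hm
    · exact absurd ((hx j).symm.trans (by rw [Space.Pt.eval]; exact dif_neg hm)) hne
  · exact subset_talg K _ (Or.inl ⟨(j, some l), Option.some_ne_none l, rfl⟩)

end Setup

end FLTAgent.AV
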