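import Fermat.Agent.AV.Count.SlotClass
import Fermat.Agent.AV.Count.Finite

/-!
# The identity in one slot

The solutions split into finitely many curves over the field of the other slots; along each of
them the count is quadratic.
-/

set_option autoImplicit false
set_option linter.style.haveILetI false
set_option linter.unusedSectionVars false

noncomputable section

open Set IntermediateField FLTAgent.Curves FLTAgent.Jac27.Spread

namespace FLTAgent.AV

universe u

variable {K : Type u} [Field K] [IsAlgClosed K] {g : ℕ} {V : Space K g}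

/-- The point with values in the field it generates over an intermediate field. -/
def Space.Pt.toField {L : Type u} [Field L] [Algebra K L] (L₀ : IntermediateField K L)
    (x : V.Pt L) : V.Pt (IntermediateField.adjoin L₀ x.vals) where
  q := x.q
  φ :=
    { toFun := fun a => ⟨x.φ a, subset_adjoin L₀ _ ⟨a, rfl⟩⟩
      map_one' := Subtype.ext (map_one x.φ)
      map_mul' := fun a b => Subtype.ext (map_mul x.φ a b)
      map_zero' := Subtype.ext (map_zero x.φ)
      map_add' := fun a b => Subtype.ext (map_add x.φ a b)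
      commutes' := fun c => Subtype.ext (x.φ.commutes c) }
  isUnit_of_ne_zero a h := x.isUnit_of_ne_zero a fun h0 => h (Subtype.ext h0)

theorem Space.Pt.map_toField {L : Type u} [Field L] [Algebra K L] (L₀ : IntermediateField K L)
    (x : V.Pt L) :
    (x.toField L₀).map ((IntermediateField.adjoin L₀ x.vals).val.restrictScalars K) = x := rfl

/-- A point is the image of another under an embedding over the intermediate field. -/
def Rel {L : Type u} [Field L] [Algebra K L] (L₀ : IntermediateField K L) (x y : V.Pt L) : Prop :=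
  ∃ σ : IntermediateField.adjoin L₀ x.vals →ₐ[L₀] L,
    (x.toField L₀).map (σ.restrictScalars K) = y

theorem rel_refl {L : Type u} [Field L] [Algebra K L] (L₀ : IntermediateField K L) (x : V.Pt L) :
    Rel L₀ x x :=
  ⟨(IntermediateField.adjoin L₀ x.vals).val, rfl⟩

theorem fieldRange_le_of_rel {L : Type u} [Field L] [Algebra K L] {L₀ : IntermediateField K L}
    {x y : V.Pt L} {σ : IntermediateField.adjoin L₀ x.vals →ₐ[L₀] L}
    (hσ : (x.toField L₀).map (σ.restrictScalars K) = y) :
    σ.fieldRange = IntermediateField.adjoin L₀ y.vals := by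
  have h0 : (IntermediateField.adjoin L₀ (x.toField L₀).vals) = ⊤ := by
    refine IntermediateField.map_injective (IntermediateField.adjoin L₀ x.vals).val ?_
    rw [adjoin_map, ← AlgHom.fieldRange_eq_map, IntermediateField.fieldRange_val]
    have := congrArg Space.Pt.vals (Space.Pt.map_toField L₀ x)
    rw [Space.Pt.vals_map] at this
    exact congrArg _ this
  rw [AlgHom.fieldRange_eq_map, ← h0, adjoin_map, ← hσ, Space.Pt.vals_map]
  rfl

theorem rel_trans {L : Type u} [Field L] [Algebra K L] {L₀ : IntermediateField K L}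
    {x y z : V.Pt L} : Rel L₀ x y → Rel L₀ y z → Rel L₀ x z := by
  rintro ⟨σ, hσ⟩ ⟨σ', hσ'⟩
  have h := fieldRange_le_of_rel hσ
  let τ : IntermediateField.adjoin L₀ x.vals →ₐ[L₀] IntermediateField.adjoin L₀ y.vals :=
    (IntermediateField.inclusion h.le).comp σ.rangeRestrict
  have hτ : (x.toField L₀).map (τ.restrictScalars K) = y.toField L₀ :=
    Space.Pt.map_injective ((IntermediateField.adjoin L₀ y.vals).val.restrictScalars K) (by
      rw [Space.Pt.map_toField, Space.Pt.map_map]; exact hσ)
  refine ⟨σ'.comp τ, ?_⟩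
  rw [← hσ', ← hτ, Space.Pt.map_map]
  rfl

theorem rel_symm {L : Type u} [Field L] [Algebra K L] {L₀ : IntermediateField K L}
    {x y : V.Pt L} : Rel L₀ x y → Rel L₀ y x := by
  rintro ⟨σ, hσ⟩
  have h := fieldRange_le_of_rel hσ
  let τ : IntermediateField.adjoin L₀ x.vals ≃ₐ[L₀] IntermediateField.adjoin L₀ y.vals :=
    (AlgEquiv.ofInjectiveField σ).trans (IntermediateField.equivOfEq h)
  have hτ : (x.toField L₀).map (τ.toAlgHom.restrictScalars K) = y.toField L₀ :=
    Space.Pt.map_injective ((IntermediateField.adjoin L₀ y.vals).val.restrictScalars K) (by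
      rw [Space.Pt.map_toField, Space.Pt.map_map]; exact hσ)
  refine ⟨(IntermediateField.adjoin L₀ x.vals).val.comp τ.symm.toAlgHom, ?_⟩
  rw [← hτ, Space.Pt.map_map]
  rw [show ((((IntermediateField.adjoin L₀ x.vals).val.comp τ.symm.toAlgHom)).restrictScalars K).comp
      (τ.toAlgHom.restrictScalars K) = (IntermediateField.adjoin L₀ x.vals).val.restrictScalars K from
    AlgHom.ext fun z => congrArg Subtype.val (τ.symm_apply_apply z)]
  exact Space.Pt.map_toField L₀ x

namespace Setup

variable {G : Law V} (S : Setup G)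

/-- The slot identity along one curve. -/
theorem class_identity (hQ : TargetCube.{u}) (L₀ L₁ : IntermediateField K S.L)
    [IsAlgClosed L₀] [IsAlgClosed L₁] [Algebra L₀ L₁] [IsScalarTower L₀ L₁ S.L]
    [IsScalarTower K L₀ L₁] (i : Fin g) (a : Fin g → ℤ) (C : Finset ℤ)
    (hC : ∀ c ∈ C, ∀ j, ((Function.update a i c j : ℤ) : K) ≠ 0)
    (n : ℕ) (hn : (n : ℤ) ∈ C ∧ -(n : ℤ) ∈ C ∧ (1 : ℤ) ∈ C ∧ (-1 : ℤ) ∈ C)
    (hη : ∀ j, (S.η j).vals ⊆ L₁) (ht : S.X (i, none) ∉ L₁)
    (hgen : ((S.η i).restrict L₁ (hη i)).GenericOver (IsScalarTower.toAlgHom K L₀ L₁).fieldRange)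
    (hη0 : ∀ j, j ≠ i → (S.η j).vals ⊆ L₀) (ht0 : ∀ j, j ≠ i → S.X (j, none) ∈ L₀)
    (r : V.Pt S.L) [IsFunctionField L₀ (IntermediateField.adjoin L₀ r.vals)] {c₀ : ℤ}
    (hr : S.IsSol (Function.update a i c₀) r) :
    (Nat.card {x // S.IsSol (Function.update a i n) x ∧ Rel L₀ r x} : ℤ) +
        Nat.card {x // S.IsSol (Function.update a i (-n)) x ∧ Rel L₀ r x} =
      (n : ℤ) ^ 2 * (Nat.card {x // S.IsSol (Function.update a i 1) x ∧ Rel L₀ r x} +
        Nat.card {x // S.IsSol (Function.update a i (-1)) x ∧ Rel L₀ r x}) := by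
  classical
  letI := G.group S.L
  obtain ⟨F, _, _, _, _, _, ι, hι⟩ :=
    Const.exists_constExt L₀ L₁ (IntermediateField.adjoin L₀ r.vals)
  letI : Algebra K F := ((algebraMap L₁ F).comp (algebraMap K L₁)).toAlgebra
  haveI : IsScalarTower K L₁ F := IsScalarTower.of_algebraMap_eq fun _ => rfl
  haveI : IsScalarTower K L₀ F := IsScalarTower.of_algebraMap_eq fun c => by
    rw [IsScalarTower.algebraMap_apply L₀ L₁ F, ← IsScalarTower.algebraMap_apply K L₀ L₁]
    rfl
  have hmap : ∀ j, ((S.η j).restrict L₁ (hη j)).map (IsScalarTower.toAlgHom K L₁ S.L) = S.η j :=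
    fun j => rfl
  have key : ∀ c ∈ C, (Nat.card {x // S.IsSol (Function.update a i c) x ∧ Rel L₀ r x} : ℤ) =
      G.slotDegree (S.h i) ((S.η i).restrict L₁ (hη i))
        ((r.toField L₀).map (ι.restrictScalars K)) c := by
    intro c hc
    have hrest : ∀ σ : IntermediateField.adjoin L₀ r.vals →ₐ[L₀] S.L, ∀ j, j ≠ i →
        (Function.update a i c j • (r.toField L₀).map (σ.restrictScalars K) + S.η j).eval (S.h j) =
          S.X (j, none) := by
      intro σ j hj
      letI := G.group (IntermediateField.adjoin L₀ r.vals)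
      let w := a j • r.toField L₀ + ((S.η j).restrict L₀ (hη0 j hj)).map
        (IsScalarTower.toAlgHom K L₀ (IntermediateField.adjoin L₀ r.vals))
      have hw : ∀ τ : IntermediateField.adjoin L₀ r.vals →ₐ[L₀] S.L,
          w.map (τ.restrictScalars K) = a j • (r.toField L₀).map (τ.restrictScalars K) + S.η j := by
        intro τ
        rw [G.map_add, G.map_zsmul_pt, Space.Pt.map_map,
          show (τ.restrictScalars K).comp (IsScalarTower.toAlgHom K L₀
            (IntermediateField.adjoin L₀ r.vals)) = L₀.val from AlgHom.ext fun z => τ.commutes z]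
        rfl
      have h1 : w.eval (S.h j) = algebraMap L₀ _ ⟨_, ht0 j hj⟩ := by
        refine (IntermediateField.adjoin L₀ r.vals).val.toRingHom.injective ?_
        refine (Space.Pt.eval_map ((IntermediateField.adjoin L₀ r.vals).val.restrictScalars K)
          w (S.h j)).symm.trans ?_
        rw [hw]
        have := hr j
        rw [Function.update_of_ne hj] at this
        exact this
      rw [Function.update_of_ne hj, ← hw, Space.Pt.eval_map, h1]
      exact σ.commutes _
    have hcard : Nat.card {x // S.IsSol (Function.update a i c) x ∧ Rel L₀ r x} =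
        Nat.card {σ : IntermediateField.adjoin L₀ r.vals →ₐ[L₀] S.L //
          (Function.update a i c i • (r.toField L₀).map (σ.restrictScalars K) +
            ((S.η i).restrict L₁ (hη i)).map (IsScalarTower.toAlgHom K L₁ S.L)).eval (S.h i) =
              S.X (i, none)} := by
      let f : {σ : IntermediateField.adjoin L₀ r.vals →ₐ[L₀] S.L //
          (Function.update a i c i • (r.toField L₀).map (σ.restrictScalars K) +
            ((S.η i).restrict L₁ (hη i)).map (IsScalarTower.toAlgHom K L₁ S.L)).eval (S.h i) =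
              S.X (i, none)} → {x // S.IsSol (Function.update a i c) x ∧ Rel L₀ r x} := fun σ =>
        ⟨(r.toField L₀).map (σ.1.restrictScalars K),
          fun j => if hj : j = i then hj ▸ σ.2 else hrest σ.1 j hj, σ.1, rfl⟩
      refine (Nat.card_congr (Equiv.ofBijective f ⟨?_, ?_⟩)).symm
      · intro σ σ' h
        refine Subtype.ext (IntermediateField.adjoin_algHom_ext (F := L₀) (s := r.vals) ?_)
        rintro x hx
        obtain ⟨b, rfl⟩ := hx
        have h1 : (r.toField L₀).map (σ.1.restrictScalars K) =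
            (r.toField L₀).map (σ'.1.restrictScalars K) := congrArg Subtype.val h
        simp only [Space.Pt.map, Space.Pt.mk.injEq, heq_eq_eq, true_and] at h1
        exact DFunLike.congr_fun h1 b
      · rintro ⟨x, hx, σ, rfl⟩
        exact ⟨⟨σ, hx i⟩, rfl⟩
    rw [hcard, card_class G hι (r.toField L₀) ?_ (fun j => (S.η j).restrict L₁ (hη j)) S.h
      (fun j => S.X (j, none)) i (Function.update a i c) (hC c hc) ?_ ?_ hrest ?_,
      Function.update_self]
    · refine IntermediateField.map_injective (IntermediateField.adjoin L₀ r.vals).val ?_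
      rw [adjoin_map, ← AlgHom.fieldRange_eq_map, IntermediateField.fieldRange_val]
      have := congrArg Space.Pt.vals (Space.Pt.map_toField L₀ r)
      rw [Space.Pt.vals_map] at this
      exact congrArg _ this
    · exact transcendental_of_ne_algebraMap fun b hb => ht (by rw [hb]; exact b.2)
    · exact fun j hj => ⟨algebraMap L₀ L₁ ⟨_, ht0 j hj⟩,
        (IsScalarTower.algebraMap_apply L₀ L₁ S.L _).symm⟩
    · intro x hx
      have hsol : S.IsSol (Function.update a i c) x := hx
      exact ⟨hsol.full.z_gen _, hsol.full.det _⟩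
  have hη' : ((S.η i).restrict L₁ (hη i)).GenericOver
      (IsScalarTower.toAlgHom K L₀ L₁).fieldRange := hgen
  have h1 := hQ G ι hι (r.toField L₀) ((S.η i).restrict L₁ (hη i)) hη' (S.h i) n
  rw [key _ hn.1, key _ hn.2.1, key _ hn.2.2.1, key _ hn.2.2.2]
  exact h1

/-- The slot identity over given fields of constants. -/
theorem slot_identity_aux (hQ : TargetCube.{u}) (L₀ L₁ : IntermediateField K S.L)
    [IsAlgClosed L₀] [IsAlgClosed L₁] [Algebra L₀ L₁] [IsScalarTower L₀ L₁ S.L]
    [IsScalarTower K L₀ L₁] (i : Fin g) (a : Fin g → ℤ) (ha : ∀ j, (a j : K) ≠ 0)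
    (n : ℕ) (hn : (n : K) ≠ 0) (hη : ∀ j, (S.η j).vals ⊆ L₁) (ht : S.X (i, none) ∉ L₁)
    (hgen : ((S.η i).restrict L₁ (hη i)).GenericOver (IsScalarTower.toAlgHom K L₀ L₁).fieldRange)
    (hη0 : ∀ j, j ≠ i → (S.η j).vals ⊆ L₀) (ht0 : ∀ j, j ≠ i → S.X (j, none) ∈ L₀)
    (hFF : ∀ c x, S.IsSol (Function.update a i c) x →
      IsFunctionField L₀ (IntermediateField.adjoin L₀ x.vals)) :
    (Nat.card {x // S.IsSol (Function.update a i n) x} : ℤ) +
        Nat.card {x // S.IsSol (Function.update a i (-n)) x} =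
      (n : ℤ) ^ 2 * (Nat.card {x // S.IsSol (Function.update a i 1) x} +
        Nat.card {x // S.IsSol (Function.update a i (-1)) x}) := by
  classical
  letI := G.group S.L
  set C : Finset ℤ := {(n : ℤ), -(n : ℤ), 1, -1} with hC
  have hCK : ∀ c ∈ C, ∀ j, ((Function.update a i c j : ℤ) : K) ≠ 0 := by
    intro c hc j
    by_cases hj : j = i
    · subst hj
      rw [Function.update_self]
      simp only [hC, Finset.mem_insert, Finset.mem_singleton] at hc
      rcases hc with rfl | rfl | rfl | rfl <;> simp [hn]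
    · rw [Function.update_of_ne hj]; exact ha j
  let P : V.Pt S.L → Prop := fun x => ∃ c ∈ C, S.IsSol (Function.update a i c) x
  haveI : ∀ c : C, Finite {x // S.IsSol (Function.update a i c) x} := fun c =>
    S.finite_sol _ (hCK c c.2)
  haveI : Finite {x // P x} :=
    Finite.of_surjective (α := Σ c : C, {x // S.IsSol (Function.update a i c) x})
      (fun s => ⟨s.2.1, s.1, s.1.2, s.2.2⟩) fun ⟨x, c, hc, hx⟩ => ⟨⟨⟨c, hc⟩, x, hx⟩, rfl⟩
  let st : Setoid {x // P x} :=
    ⟨fun x y => Rel L₀ x.1 y.1, fun x => rel_refl L₀ x.1, fun h => rel_symm h,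
      fun h h' => rel_trans h h'⟩
  haveI : Finite (Quotient st) := inferInstance
  haveI := Fintype.ofFinite (Quotient st)
  let cnt : ℤ → Quotient st → ℕ := fun c q =>
    Nat.card {x // S.IsSol (Function.update a i c) x ∧ Rel L₀ q.out.1 x}
  have hsum : ∀ c ∈ C, Nat.card {x // S.IsSol (Function.update a i c) x} = ∑ q, cnt c q := by
    intro c hc
    haveI : Finite {x // S.IsSol (Function.update a i c) x} := S.finite_sol _ (hCK c hc)
    let f : {x // S.IsSol (Function.update a i c) x} → Quotient st := fun x =>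
      Quotient.mk st ⟨x.1, c, hc, x.2⟩
    rw [← Nat.card_congr (Equiv.sigmaFiberEquiv f), Nat.card_sigma]
    refine Finset.sum_congr rfl fun q _ => Nat.card_congr ?_
    refine
      { toFun := fun x => ⟨x.1.1, x.1.2, ?_⟩
        invFun := fun x => ⟨⟨x.1, x.2.1⟩, ?_⟩
        left_inv := fun x => rfl
        right_inv := fun x => rfl }
    · exact Quotient.exact ((Quotient.out_eq q).trans x.2.symm)
    · exact (Quotient.sound (a := (⟨x.1, c, hc, x.2.1⟩ : {x // P x})) (b := q.out)
        (rel_symm x.2.2)).trans (Quotient.out_eq q)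
  have hid : ∀ q, (cnt n q : ℤ) + cnt (-n) q = (n : ℤ) ^ 2 * (cnt 1 q + cnt (-1) q) := by
    intro q
    have hr : ∃ c₀ ∈ C, S.IsSol (Function.update a i c₀) q.out.1 := q.out.2
    obtain ⟨c₀, hc₀, hr⟩ := hr
    haveI := hFF c₀ q.out.1 hr
    exact S.class_identity hQ L₀ L₁ i a C hCK n (by simp [hC]) hη ht hgen hη0 ht0 q.out.1 hr
  rw [hsum _ (by simp [hC]), hsum _ (by simp [hC]), hsum _ (by simp [hC]), hsum _ (by simp [hC])]
  push_cast
  rw [← Finset.sum_add_distrib, ← Finset.sum_add_distrib, Finset.mul_sum]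
  exact Finset.sum_congr rfl fun q _ => hid q

theorem slot_generic (i : Fin g) (L₀ L₁ : IntermediateField K S.L) [Algebra L₀ L₁]
    [IsScalarTower L₀ L₁ S.L] [IsScalarTower K L₀ L₁]
    (h₀ : L₀ = talg K (S.X '' {q | q.1 ≠ i})) (hη : (S.η i).vals ⊆ L₁)
    (hmem : ∀ l, S.X (i, some l) ∈ L₁) :
    ((S.η i).restrict L₁ hη).GenericOver (IsScalarTower.toAlgHom K L₀ L₁).fieldRange := by
  classical
  rw [Space.Pt.genericOver_iff]
  subst h₀
  have hd : Disjoint {q : Fin g × Option (Fin g) | q.1 ≠ i} {q | q.1 = i} :=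
    Set.disjoint_left.2 fun q h h' => h h'
  let v : Fin g → L₁ := fun l => ⟨S.X (i, some l), hmem l⟩
  have hv : AlgebraicIndependent (talg K (S.X '' {q | q.1 ≠ i})) v :=
    AlgebraicIndependent.of_comp (IsScalarTower.toAlgHom (talg K (S.X '' {q | q.1 ≠ i})) L₁ S.L)
      ((indep_over_talg S.indep hd).comp (fun l => ⟨(i, some l), rfl⟩)
        fun l l' h => Option.some_injective _ (congrArg (fun q => q.1.2) h))
  have h1 := indep_tdim_image hv Set.univ
  rw [encard_univ, ENat.card_eq_coe_fintype_card, Fintype.card_fin, image_univ] at h1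
  refine le_of_eq_of_le h1.symm (tdim_mono _ ?_)
  rintro _ ⟨l, rfl⟩
  refine ⟨(⟨S.h l, (S.η_gen i).symm ▸ Space.Pt.mem_O_gen _⟩ : V.O (S.η i).q), Subtype.ext ?_⟩
  exact (Space.Pt.eval_of_mem _ _).symm.trans (S.η_eval i l)

theorem slot_functionField (i : Fin g) {a : Fin g → ℤ} {c : ℤ} {x : V.Pt S.L}
    (hx : S.IsSol (Function.update a i c) x) (hη : (S.η i).vals ⊆ talg K (S.X '' {q | q ≠ (i, none)}))
    (hsub : {q : Fin g × Option (Fin g) | q.1 ≠ i} ⊆ {q | q ≠ (i, none)}) :
    IsFunctionField (talg K (S.X '' {q | q.1 ≠ i})) (IntermediateField.adjoin (talg K (S.X '' {q | q.1 ≠ i})) x.vals) := by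
  classical
  set I₀ : Set (Fin g × Option (Fin g)) := {q | q.1 ≠ i} with hI₀
  set I₁ : Set (Fin g × Option (Fin g)) := {q | q ≠ (i, none)} with hI₁
  letI := G.group S.L
  haveI := V.essFiniteType
  have hxg := hx.full.gen
  obtain ⟨t₀, ht₀x, ht₀⟩ : ∃ t ∈ x.vals, t ∉ talg K (S.X '' I₀) := by
    by_contra! hall
    refine indep_notMem_talg S.indep (s := I₁) (i := (i, none)) (fun h => h rfl) ?_
    rw [← hx i]
    by_cases hm : S.h i ∈ V.O (Function.update a i c i • x + S.η i).q
    · exact S.vals_z _ x i (fun y hy => talg_mono (image_mono hsub) (hall y hy)) hη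
        (Space.Pt.eval_mem_vals _ hm)
    · rw [Space.Pt.eval, dif_neg hm]; exact zero_mem _
  have hI₀c : I₀.encard = ((g - 1) * (g + 1) : ℕ) := by
    have : I₀ = ↑((Finset.univ.erase i) ×ˢ (Finset.univ : Finset (Option (Fin g)))) := by
      ext q; simp [hI₀]
    rw [this, encard_coe_eq_coe_finsetCard, Finset.card_product,
      Finset.card_erase_of_mem (Finset.mem_univ i), Finset.card_univ, Finset.card_univ,
      Fintype.card_option, Fintype.card_fin]
  have hle : tdim K (S.X '' I₀ ∪ x.vals) ≤ ((g - 1) * (g + 1) + 1 : ℕ) := by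
    set R := S.X '' {q | q.1 ≠ i ∧ q.2 ≠ none}
    have h1 : S.X '' I₀ ∪ x.vals ⊆ talg K (R ∪ x.vals) := by
      refine union_subset ?_ (subset_talg_of_subset subset_union_right)
      rintro _ ⟨⟨j, o⟩, hj, rfl⟩
      rcases o with _ | l
      · rw [← hx j]
        by_cases hm : S.h j ∈ V.O (Function.update a i c j • x + S.η j).q
        · exact S.vals_z _ x j (subset_talg_of_subset subset_union_right)
            ((S.η_vals j).trans (talg_mono (subset_union_of_subset_left
              (show S.X '' {q | q.1 = j ∧ q.2 ≠ none} ⊆ R from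
                image_mono fun q hq => ⟨fun e => hj (hq.1.symm.trans e), hq.2⟩) _)))
            (Space.Pt.eval_mem_vals _ hm)
        · rw [Space.Pt.eval, dif_neg hm]; exact zero_mem _
      · exact subset_talg K _ (Or.inl ⟨(j, some l), ⟨hj, Option.some_ne_none l⟩, rfl⟩)
    have hR : tdim K R ≤ ((g - 1) * g : ℕ) := by
      rw [indep_tdim_image S.indep]
      have : {q : Fin g × Option (Fin g) | q.1 ≠ i ∧ q.2 ≠ none} =
          ↑(((Finset.univ.erase i) ×ˢ (Finset.univ : Finset (Fin g))).image
            fun q : Fin g × Fin g => (q.1, some q.2)) := by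
        ext ⟨j, o⟩
        cases o <;> simp
      rw [this, encard_coe_eq_coe_finsetCard, Nat.cast_le]
      refine Finset.card_image_le.trans (le_of_eq ?_)
      rw [Finset.card_product, Finset.card_erase_of_mem (Finset.mem_univ i), Finset.card_univ,
        Fintype.card_fin]
    refine (tdim_le_of_subset h1).trans ((tdim_union_le K _ _).trans
      ((add_le_add hR (tdim_vals_le hxg)).trans ?_))
    obtain ⟨g', rfl⟩ : ∃ g', g = g' + 1 := ⟨g - 1, by have := i.2; omega⟩
    rw [← Nat.cast_add, Nat.cast_le]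
    simp only [Nat.add_sub_cancel]
    nlinarith
  have hx_sub : x.vals ⊆ talg K (insert t₀ (S.X '' I₀)) :=
    subset_talg_insert ht₀x ht₀ ((indep_tdim_image S.indep I₀).trans hI₀c) hle
  obtain ⟨gens, hgens⟩ := IntermediateField.fg_top K V.N
  set e := x.evalHom hxg
  set Gs : Set S.L := insert t₀ (e '' (gens : Set V.N))
  have hv : x.vals = range e := Space.Pt.vals_of_gen x hxg
  have hGs : Gs ⊆ x.vals := Set.insert_subset ht₀x (hv ▸ image_subset_range _ _)
  obtain ⟨h1, -⟩ := isFunctionField_adjoin (K := K) (S.X '' I₀) Gs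
    ((gens.finite_toSet.image _).insert _) (mem_insert _ _) ht₀ (hGs.trans hx_sub)
  rwa [show IntermediateField.adjoin (talg K (S.X '' I₀)) x.vals =
    IntermediateField.adjoin (talg K (S.X '' I₀)) Gs from
      le_antisymm (adjoin_le_iff.2 (by
        rw [hv]
        rintro _ ⟨m, rfl⟩
        have hm : e m ∈ IntermediateField.adjoin K (e '' (gens : Set V.N)) := by
          rw [← adjoin_map, hgens]
          exact ⟨m, IntermediateField.mem_top, rfl⟩
        exact Law.subset_adjoin_restrict (K := K) Gs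
          (IntermediateField.adjoin.mono K _ _ (subset_insert _ _) hm)))
        (adjoin_le_iff.2 (hGs.trans (subset_adjoin _ _)))]

theorem slot_identity_talg (hQ : TargetCube.{u}) (i : Fin g) (a : Fin g → ℤ)
    (ha : ∀ j, (a j : K) ≠ 0) (n : ℕ) (hn : (n : K) ≠ 0) (L₀ L₁ : IntermediateField K S.L)
    (h₀ : L₀ = talg K (S.X '' {q | q.1 ≠ i}))
    (h₁ : L₁ = talg K (S.X '' {q | q ≠ (i, none)})) :
    (Nat.card {x // S.IsSol (Function.update a i n) x} : ℤ) +
        Nat.card {x // S.IsSol (Function.update a i (-n)) x} =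
      (n : ℤ) ^ 2 * (Nat.card {x // S.IsSol (Function.update a i 1) x} +
        Nat.card {x // S.IsSol (Function.update a i (-1)) x}) := by
  have hsub : {q : Fin g × Option (Fin g) | q.1 ≠ i} ⊆ {q | q ≠ (i, none)} :=
    fun q hq e => hq (congrArg Prod.fst e)
  haveI : IsAlgClosed L₀ := by subst h₀; exact isAlgClosed_talg _
  haveI : IsAlgClosed L₁ := by subst h₁; exact isAlgClosed_talg _
  have hle : L₀ ≤ L₁ := by rw [h₀, h₁]; exact talg_mono (image_mono hsub)
  letI : Algebra L₀ L₁ := (IntermediateField.inclusion hle).toRingHom.toAlgebra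
  haveI : IsScalarTower L₀ L₁ S.L := IsScalarTower.of_algebraMap_eq fun _ => rfl
  haveI : IsScalarTower K L₀ L₁ := IsScalarTower.of_algebraMap_eq fun _ => rfl
  have hη : ∀ j, (S.η j).vals ⊆ L₁ := fun j => by
    rw [h₁]; exact (S.η_vals j).trans (talg_mono (image_mono fun q hq e => hq.2 (by rw [e])))
  have hη0 : ∀ j, j ≠ i → (S.η j).vals ⊆ L₀ := fun j hj => by
    rw [h₀]
    exact (S.η_vals j).trans (talg_mono (image_mono fun q hq e => hj (hq.1.symm.trans e)))
  refine S.slot_identity_aux hQ L₀ L₁ i a ha n hn hη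
    (by rw [h₁]; exact indep_notMem_talg S.indep fun h => h rfl)
    (S.slot_generic i L₀ L₁ h₀ (hη i) fun l => by
      rw [h₁]
      exact subset_talg K _ ⟨(i, some l), fun e => Option.some_ne_none l (congrArg Prod.snd e), rfl⟩)
    hη0 (fun j hj => by rw [h₀]; exact subset_talg K _ ⟨(j, none), hj, rfl⟩) ?_
  intro c x hx
  have hF := S.slot_functionField i hx (by rw [← h₁]; exact hη i) hsub
  subst h₀
  exact hF

/-- The slot identity. -/
theorem slot_identity (hQ : TargetCube.{u}) (i : Fin g) (a : Fin g → ℤ)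
    (ha : ∀ j, (a j : K) ≠ 0) (n : ℕ) (hn : (n : K) ≠ 0) :
    (Nat.card {x // S.IsSol (Function.update a i n) x} : ℤ) +
        Nat.card {x // S.IsSol (Function.update a i (-n)) x} =
      (n : ℤ) ^ 2 * (Nat.card {x // S.IsSol (Function.update a i 1) x} +
        Nat.card {x // S.IsSol (Function.update a i (-1)) x}) :=
  S.slot_identity_talg hQ i a ha n hn _ _ rfl rfl

end Setup

end FLTAgent.AV
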