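import Fermat.Agent.AV.Count.Setup
import Fermat.Agent.AV.Count.Hom

/-!
# One slot along one curve

The embeddings of a curve solving the equation of one slot are counted by the degree along the
translate, which is quadratic in the multiplier.
-/

set_option autoImplicit false
set_option linter.style.haveILetI false
set_option linter.unusedSectionVars false

noncomputable section

open Set IntermediateField FLTAgent.Curves FLTAgent.Jac27.Spread AlgebraicCurve

namespace FLTAgent.AV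

universe u

variable {K : Type u} [Field K] [IsAlgClosed K] {g : ℕ} {V : Space K g} (G : Law V)

/-- A derivation killing a point kills the field it generates over killed constants. -/
theorem deriv_eq_zero_of_adjoin {Ω₀ Ω F₀ F : Type u} [Field Ω₀] [Field Ω] [Field F₀] [Field F]
    [Algebra Ω₀ F₀] [Algebra Ω₀ Ω] [Algebra Ω F] [Algebra Ω₀ F] [IsScalarTower Ω₀ Ω F]
    {ι : F₀ →ₐ[Ω₀] F} (hι : ConstExt (K := Ω) ι) {T : Set F₀}
    (hT : IntermediateField.adjoin Ω₀ T = ⊤) (D : Derivation Ω F F)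
    (h : ∀ x ∈ T, D (ι x) = 0) : ∀ y, D y = 0 := by
  have hinv : ∀ y, D y = 0 → D y⁻¹ = 0 := fun y hy => by rw [Derivation.leibniz_inv, hy, smul_zero]
  have h0 : ∀ c : Ω₀, D (algebraMap Ω₀ F c) = 0 := fun c => by
    rw [IsScalarTower.algebraMap_apply Ω₀ Ω F, D.map_algebraMap]
  have h1 : ∀ x : F₀, D (ι x) = 0 := by
    intro x
    have hx : x ∈ IntermediateField.adjoin Ω₀ T := hT ▸ IntermediateField.mem_top
    induction hx using IntermediateField.adjoin_induction with
    | mem x hx => exact h x hx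
    | algebraMap c => rw [ι.commutes]; exact h0 c
    | add x y _ _ hx hy => rw [map_add, map_add, hx, hy, add_zero]
    | inv x _ hx => rw [map_inv₀]; exact hinv _ hx
    | mul x y _ _ hx hy => rw [map_mul, Derivation.leibniz, hx, hy, smul_zero, smul_zero, add_zero]
  intro y
  have hy : y ∈ IntermediateField.adjoin Ω (range ι) := hι.gen ▸ IntermediateField.mem_top
  induction hy using IntermediateField.adjoin_induction with
  | mem x hx => obtain ⟨z, rfl⟩ := hx; exact h1 z
  | algebraMap c => exact D.map_algebraMap c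
  | add x y _ _ hx hy => rw [map_add, hx, hy, add_zero]
  | inv x _ hx => exact hinv _ hx
  | mul x y _ _ hx hy => rw [Derivation.leibniz, hx, hy, smul_zero, smul_zero, add_zero]

section Slot

variable {Ω₀ Ω F₀ F Λ : Type u} [Field Ω₀] [Field Ω] [Field F₀] [Field F] [Field Λ]
  [Algebra K Ω₀] [Algebra K Ω] [Algebra K F₀] [Algebra K F] [Algebra K Λ]
  [Algebra Ω₀ Ω] [Algebra Ω₀ F₀] [Algebra Ω F] [Algebra Ω₀ F] [Algebra Ω₀ Λ] [Algebra Ω Λ]
  [IsScalarTower K Ω₀ Ω] [IsScalarTower K Ω₀ F₀] [IsScalarTower K Ω F] [IsScalarTower K Ω₀ F]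
  [IsScalarTower Ω₀ Ω F] [IsScalarTower K Ω₀ Λ] [IsScalarTower K Ω Λ] [IsScalarTower Ω₀ Ω Λ]
  [IsAlgClosed Ω₀] [IsAlgClosed Ω] [IsAlgClosed Λ]
  [IsFunctionField Ω₀ F₀] [IsFunctionField Ω F]

/-- The solutions on one curve. -/
theorem card_class {ι : F₀ →ₐ[Ω₀] F} (hι : ConstExt (K := Ω) ι) (φ : V.Pt F₀)
    (hφ : IntermediateField.adjoin Ω₀ φ.vals = ⊤) (q : Fin g → V.Pt Ω) (h : Fin g → V.N)
    (T : Fin g → Λ) (i : Fin g) (a : Fin g → ℤ) (ha : ∀ j, (a j : K) ≠ 0)
    (hτ : Transcendental Ω (T i)) (hTmem : ∀ j, j ≠ i → ∃ c : Ω, algebraMap Ω Λ c = T j)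
    (hrest : letI := G.group Λ
      ∀ σ : F₀ →ₐ[Ω₀] Λ, ∀ j, j ≠ i → (a j • φ.map (σ.restrictScalars K) +
        (q j).map (IsScalarTower.toAlgHom K Ω Λ)).eval (h j) = T j)
    (hdet : letI := G.group Λ
      ∀ x : V.Pt Λ, (∀ j, (a j • x + (q j).map (IsScalarTower.toAlgHom K Ω Λ)).eval (h j) = T j) →
        (∀ j, (a j • x + (q j).map (IsScalarTower.toAlgHom K Ω Λ)).q = V.gen) ∧
        (Matrix.of fun j l => (a j • x + (q j).map (IsScalarTower.toAlgHom K Ω Λ)).eval
          (G.grad (h j) l)).det ≠ 0) :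
    letI := G.group Λ
    (Nat.card {σ : F₀ →ₐ[Ω₀] Λ // (a i • φ.map (σ.restrictScalars K) +
        (q i).map (IsScalarTower.toAlgHom K Ω Λ)).eval (h i) = T i} : ℤ) =
      G.slotDegree (h i) (q i) (φ.map (ι.restrictScalars K)) (a i) := by
  letI := G.group Λ
  letI := G.group F
  set z : Fin g → V.Pt F := fun j =>
    a j • φ.map (ι.restrictScalars K) + (q j).map (IsScalarTower.toAlgHom K Ω F) with hz
  have hzmap : ∀ (σ : F →ₐ[Ω] Λ) (σ₀ : F₀ →ₐ[Ω₀] Λ), (∀ x, σ (ι x) = σ₀ x) → ∀ j,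
      (z j).map (σ.restrictScalars K) =
        a j • φ.map (σ₀.restrictScalars K) + (q j).map (IsScalarTower.toAlgHom K Ω Λ) := by
    intro σ σ₀ hσ j
    rw [hz, G.map_add, G.map_zsmul_pt, Space.Pt.map_map, Space.Pt.map_map,
      show (σ.restrictScalars K).comp (ι.restrictScalars K) = σ₀.restrictScalars K from
        AlgHom.ext hσ,
      show (σ.restrictScalars K).comp (IsScalarTower.toAlgHom K Ω F) = IsScalarTower.toAlgHom K Ω Λ from
        AlgHom.ext fun c => σ.commutes c]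
  have hres : ∀ σ : F →ₐ[Ω] Λ, ∃ σ₀ : F₀ →ₐ[Ω₀] Λ, ∀ x, σ (ι x) = σ₀ x := fun σ =>
    ⟨(σ.restrictScalars Ω₀).comp ι, fun x => rfl⟩
  choose res hres using hres
  have hev : ∀ σ : F →ₐ[Ω] Λ, σ ((z i).eval (h i)) =
      (a i • φ.map ((res σ).restrictScalars K) + (q i).map (IsScalarTower.toAlgHom K Ω Λ)).eval (h i) := by
    intro σ
    rw [← hzmap σ (res σ) (hres σ) i, Space.Pt.eval_map]
    rfl
  have hext : ∀ σ₀ : F₀ →ₐ[Ω₀] Λ,
      (a i • φ.map (σ₀.restrictScalars K) + (q i).map (IsScalarTower.toAlgHom K Ω Λ)).eval (h i) = T i →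
      ∃ σ : F →ₐ[Ω] Λ, ∀ x, σ (ι x) = σ₀ x := by
    intro σ₀ hσ₀
    obtain ⟨v, hv⟩ : ∃ v : F₀, Transcendental Ω (σ₀ v) := by
      by_contra! hall
      set E := (IsScalarTower.toAlgHom K Ω Λ).fieldRange with hE
      have hmem : ∀ v, σ₀ v ∈ E := fun v => by
        by_contra hne
        exact (transcendental_of_ne_algebraMap fun c hc => hne ⟨c, hc.symm⟩ :
          Transcendental Ω (σ₀ v)) (not_not.1 (hall v))
      have h1 : (φ.map (σ₀.restrictScalars K)).vals ⊆ E := by
        rintro _ ⟨b, rfl⟩; exact hmem _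
      have h2 : ((q i).map (IsScalarTower.toAlgHom K Ω Λ)).vals ⊆ E := by
        rintro _ ⟨b, rfl⟩; exact ⟨_, rfl⟩
      by_cases hm : h i ∈ V.O (a i • φ.map (σ₀.restrictScalars K) +
          (q i).map (IsScalarTower.toAlgHom K Ω Λ)).q
      · obtain ⟨c, hc⟩ := G.vals_add (G.vals_zsmul h1 (a i)) h2 (Space.Pt.eval_mem_vals _ hm)
        exact hτ (by rw [← hσ₀, ← hc]; exact isAlgebraic_algebraMap c)
      · rw [Space.Pt.eval, dif_neg hm] at hσ₀
        exact hτ (hσ₀ ▸ isAlgebraic_zero)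
    exact exists_algHom_of_constExt hι σ₀ hv
  let e : {σ₀ : F₀ →ₐ[Ω₀] Λ // (a i • φ.map (σ₀.restrictScalars K) +
      (q i).map (IsScalarTower.toAlgHom K Ω Λ)).eval (h i) = T i} ≃
      {σ : F →ₐ[Ω] Λ // σ ((z i).eval (h i)) = T i} :=
    Equiv.ofBijective (fun s => ⟨(hext s.1 s.2).choose, by
      rw [hev, show res (hext s.1 s.2).choose = s.1 from
        AlgHom.ext fun x => (hres _ x).symm.trans ((hext s.1 s.2).choose_spec x)]
      exact s.2⟩)
    ⟨fun s t hst => Subtype.ext (AlgHom.ext fun x => by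
        rw [← (hext s.1 s.2).choose_spec x, ← (hext t.1 t.2).choose_spec x]
        exact DFunLike.congr_fun (congrArg Subtype.val hst) (ι x)),
      fun s => ⟨⟨res s.1, by rw [← hev]; exact s.2⟩, Subtype.ext (algHom_ext_of_constExt hι fun x =>
        (Exists.choose_spec (hext (res s.1) (by rw [← hev]; exact s.2)) x).trans (hres _ x).symm)⟩⟩
  rw [Nat.card_congr e, card_algHom_eq ((z i).eval (h i)) hτ fun hu => ?_]
  · rfl
  -- separability
  obtain ⟨σ, hσ⟩ := Const.exists_algHom (Ω := Λ) hu hτ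
  have hall : ∀ j, (a j • φ.map ((res σ).restrictScalars K) +
      (q j).map (IsScalarTower.toAlgHom K Ω Λ)).eval (h j) = T j := fun j => by
    by_cases hj : j = i
    · subst hj; rw [← hev]; exact hσ
    · exact hrest _ j hj
  obtain ⟨hgen, hd⟩ := hdet _ hall
  have hfd := finiteDimensional_adjoin (K := Ω) hu
  haveI : Algebra.EssFiniteType Ω Ω⟮(z i).eval (h i)⟯ :=
    (IntermediateField.essFiniteType_iff).2
      (by classical exact ⟨{(z i).eval (h i)}, by rw [Finset.coe_singleton]⟩)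
  haveI := hfd
  haveI : Algebra.EssFiniteType Ω F := Algebra.EssFiniteType.comp Ω Ω⟮(z i).eval (h i)⟯ F
  refine (finite_separable_of_forall Ω⟮(z i).eval (h i)⟯ fun D hD => ?_).2
  refine deriv_eq_zero_of_adjoin hι hφ D fun x hx => ?_
  have hx' : ι x ∈ (φ.map (ι.restrictScalars K)).vals := by
    rw [Space.Pt.vals_map]; exact ⟨x, hx, rfl⟩
  refine deriv_eq_zero_of_frame G (D.restrictScalars K) h (φ.map (ι.restrictScalars K))
    (fun j => (q j).map (IsScalarTower.toAlgHom K Ω F)) a ha (fun j => ?_) (fun j y hy => ?_)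
    (fun j => ?_) ?_ _ hx'
  · have h1 := congrArg Space.Pt.q (hzmap σ (res σ) (hres σ) j)
    exact h1.trans (hgen j)
  · obtain ⟨b, rfl⟩ := hy
    exact D.map_algebraMap _
  · by_cases hj : j = i
    · subst hj; exact hD _ (mem_adjoin_simple_self _ _)
    · obtain ⟨c, hc⟩ := hTmem j hj
      have h1 : σ ((z j).eval (h j)) = σ (algebraMap Ω F c) := by
        rw [σ.commutes, hc, ← hall j, ← hzmap σ (res σ) (hres σ) j, Space.Pt.eval_map]
        rfl
      rw [show (a j • φ.map (ι.restrictScalars K) + (q j).map (IsScalarTower.toAlgHom K Ω F)).eval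
        (h j) = algebraMap Ω F c from σ.toRingHom.injective h1]
      exact D.map_algebraMap c
  · intro h0
    refine hd ?_
    have h1 := congrArg (σ.restrictScalars K) h0
    rw [AlgHom.map_det, map_zero] at h1
    refine Eq.trans (congrArg Matrix.det (Matrix.ext fun j l => ?_)) h1
    rw [AlgHom.mapMatrix_apply, Matrix.map_apply, Matrix.of_apply, Matrix.of_apply,
      ← hzmap σ (res σ) (hres σ) j, Space.Pt.eval_map]

end Slot

end FLTAgent.AV
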