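import Fermat.Agent.AV.Count.Slot
import Fermat.Agent.AV.Count.Mul

/-!
# The number of torsion points from the quadratic degree

Averaging the slot identity over signs gives the number of torsion points over a large field; a
finite set of points stable under all automorphisms is constant.
-/

set_option autoImplicit false
set_option linter.style.haveILetI false
set_option linter.unusedSectionVars false

noncomputable section

open Set IntermediateField

namespace FLTAgent.AV

universe u

variable {K : Type u} [Field K] [IsAlgClosed K] {g : ℕ} {V : Space K g}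

namespace Setup

variable {G : Law V} (S : Setup G)

/-- The number of solutions. -/
def numSol (a : Fin g → ℤ) : ℤ := Nat.card {x : V.Pt S.L // S.IsSol a x}

/-- Multipliers equal to signs, the first `m` of them multiplied by `n`. -/
def signMult (n m : ℕ) (ε : Fin g → ℤˣ) (j : Fin g) : ℤ := (if (j : ℕ) < m then (n : ℤ) else 1) * ε j

omit [IsAlgClosed K] in
theorem signMult_ne_zero {n : ℕ} (hn : (n : K) ≠ 0) (m : ℕ) (ε : Fin g → ℤˣ) (j : Fin g) :
    ((signMult n m ε j : ℤ) : K) ≠ 0 := by
  unfold signMult
  rcases Int.units_eq_one_or (ε j) with h | h <;> split_ifs <;> simp [h, hn]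

/-- The sum over all signs. -/
def signSum (n m : ℕ) : ℤ := ∑ ε : Fin g → ℤˣ, S.numSol (signMult n m ε)

theorem signSum_succ (hQ : TargetCube.{u}) {n : ℕ} (hn : (n : K) ≠ 0) {m : ℕ} (hm : m < g) :
    S.signSum n (m + 1) = (n : ℤ) ^ 2 * S.signSum n m := by
  classical
  set i : Fin g := ⟨m, hm⟩
  let flip : Equiv.Perm (Fin g → ℤˣ) := Function.Involutive.toPerm
    (fun ε => Function.update ε i (-(ε i))) fun ε => by simp
  have e1 : ∀ (k : ℕ) (ε : Fin g → ℤˣ),
      S.numSol (signMult n k ε) + S.numSol (signMult n k (flip ε)) =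
        S.numSol (Function.update (signMult n k ε) i ((if m < k then (n : ℤ) else 1) * 1)) +
        S.numSol (Function.update (signMult n k ε) i ((if m < k then (n : ℤ) else 1) * -1)) := by
    intro k ε
    have h1 : ∀ ε' : Fin g → ℤˣ, (∀ j, j ≠ i → ε' j = ε j) →
        signMult n k ε' = Function.update (signMult n k ε) i
          ((if m < k then (n : ℤ) else 1) * (ε' i : ℤ)) := by
      intro ε' h
      funext j
      by_cases hj : j = i
      · subst hj; rw [Function.update_self]; rfl
      · rw [Function.update_of_ne hj, signMult, signMult, h j hj]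
    rw [h1 ε fun _ _ => rfl, h1 (flip ε) fun j hj => Function.update_of_ne hj _ _,
      show flip ε i = -(ε i) from Function.update_self _ _ _]
    simp only [Function.update_idem]
    rcases Int.units_eq_one_or (ε i) with h | h <;>
      simp only [h, Units.val_one, Units.val_neg, neg_neg]
    exact add_comm _ _
  have hsum : ∀ k, 2 * S.signSum n k =
      ∑ ε, (S.numSol (signMult n k ε) + S.numSol (signMult n k (flip ε))) := fun k => by
    rw [Finset.sum_add_distrib, Equiv.sum_comp flip fun ε => S.numSol (signMult n k ε), two_mul]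
    rfl
  refine mul_left_cancel₀ (two_ne_zero (α := ℤ)) ?_
  rw [mul_left_comm, hsum, hsum, Finset.mul_sum]
  refine Finset.sum_congr rfl fun ε _ => ?_
  have hu : ∀ v, Function.update (signMult n (m + 1) ε) i v = Function.update (signMult n m ε) i v := by
    intro v
    funext j
    by_cases hj : j = i
    · subst hj; simp
    · have : ((j : ℕ) < m + 1) = ((j : ℕ) < m) := propext ⟨fun h => lt_of_le_of_ne (Nat.lt_succ_iff.1 h)
        fun e => hj (Fin.ext e), fun h => by omega⟩
      simp [Function.update_of_ne hj, signMult, this]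
  rw [e1, e1, hu, hu]
  simp only [lt_self_iff_false, if_false, Nat.lt_succ_self, if_true, mul_one, mul_neg_one]
  exact S.slot_identity hQ i (signMult n m ε) (signMult_ne_zero hn m ε) n hn

theorem signSum_eq (hQ : TargetCube.{u}) {n : ℕ} (hn : (n : K) ≠ 0) :
    ∀ m ≤ g, S.signSum n m = (n : ℤ) ^ (2 * m) * S.signSum n 0
  | 0, _ => by simp
  | m + 1, h => by
    rw [S.signSum_succ hQ hn h, signSum_eq hQ hn m (Nat.le_of_succ_le h), ← mul_assoc, ← pow_add]
    congr 2
    ring

theorem signSum_pos {n : ℕ} (hn : (n : K) ≠ 0) : 0 < S.signSum n 0 := by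
  refine Finset.sum_pos (fun ε _ => ?_) Finset.univ_nonempty
  haveI := S.finite_sol _ (signMult_ne_zero hn 0 ε)
  obtain ⟨x, hx⟩ := S.exists_sol _ (signMult_ne_zero hn 0 ε)
  haveI : Nonempty {x : V.Pt S.L // S.IsSol (signMult n 0 ε) x} := ⟨⟨x, hx⟩⟩
  exact Int.natCast_pos.2 Nat.card_pos

/-- The number of torsion points over the large field. -/
theorem card_torsion (hQ : TargetCube.{u}) {n : ℕ} (hn : (n : K) ≠ 0) :
    letI := G.group S.L
    Nat.card {p : V.Pt S.L // n • p = 0} = n ^ (2 * g) := by
  classical
  letI := G.group S.L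
  have h1 : S.signSum n g = (Nat.card {p : V.Pt S.L // n • p = 0} : ℤ) * S.signSum n 0 := by
    rw [signSum, signSum, Finset.mul_sum]
    refine Finset.sum_congr rfl fun ε _ => ?_
    have h2 : signMult n g ε = fun j => (n : ℤ) * signMult n 0 ε j := funext fun j => by
      simp [signMult, j.2]
    have hn' : (((n : ℤ)) : K) ≠ 0 := by rwa [Int.cast_natCast]
    rw [numSol, numSol, h2, S.card_sol_mul hn', Nat.cast_mul]
    simp only [natCast_zsmul]
  rw [S.signSum_eq hQ hn g le_rfl] at h1
  exact_mod_cast (mul_right_cancel₀ (S.signSum_pos hn).ne' h1).symm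

omit [IsAlgClosed K] in
/-- A transcendental element has infinitely many images. -/
theorem exists_shift {v : S.L} (hv : Transcendental K v) (c : K) :
    ∃ e : S.L →ₐ[K] S.L, e v = v + algebraMap K S.L c := by
  classical
  obtain ⟨s, hs, hb⟩ := exists_isTranscendenceBasis_superset (R := K) (s := {v})
    ((algebraicIndependent_singleton_iff (⟨v, rfl⟩ : ({v} : Set S.L))).2 hv)
  let i : s := ⟨v, hs rfl⟩
  let sh : K → MvPolynomial s K →ₐ[K] MvPolynomial s K := fun d => MvPolynomial.aeval fun x =>
    MvPolynomial.X x + MvPolynomial.C (if x = i then d else 0)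
  have hsh : ∀ d, Function.Injective (sh d) := fun d => Function.LeftInverse.injective (g := sh (-d))
    fun p => by
      have : (sh (-d)).comp (sh d) = AlgHom.id K _ := MvPolynomial.algHom_ext fun x => by
        simp only [sh, AlgHom.comp_apply, MvPolynomial.aeval_X, map_add, AlgHom.id_apply]
        rw [MvPolynomial.aeval_C, MvPolynomial.algebraMap_eq]
        split_ifs <;> simp [add_assoc]
      exact DFunLike.congr_fun this p
  have hτ : AlgebraicIndependent K
      fun x : s => (x : S.L) + algebraMap K S.L (if x = i then c else 0) := by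
    rw [algebraicIndependent_iff_injective_aeval]
    have : MvPolynomial.aeval (fun x : s => (x : S.L) + algebraMap K S.L (if x = i then c else 0)) =
        (MvPolynomial.aeval ((↑) : s → S.L)).comp (sh c) := MvPolynomial.algHom_ext fun x => by
      simp [sh]
    rw [this]
    exact (algebraicIndependent_iff_injective_aeval.1 hb.1).comp (hsh c)
  haveI := hb.isAlgebraic_field
  obtain ⟨e, he⟩ := exists_algHom_basis hb.1 hτ
  exact ⟨e, (he i).trans (by rw [if_pos rfl])⟩

/-- Torsion points have constant values. -/
theorem vals_torsion (hQ : TargetCube.{u}) {n : ℕ} (hn : (n : K) ≠ 0) (p : V.Pt S.L)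
    (hp : letI := G.group S.L; n • p = 0) : p.vals ⊆ (⊥ : IntermediateField K S.L) := by
  letI := G.group S.L
  rintro _ ⟨b, rfl⟩
  by_contra hb
  have hv : Transcendental K (p.φ b) :=
    FLTAgent.Curves.transcendental_of_ne_algebraMap fun c hc => hb ⟨c, hc.symm⟩
  choose e he using S.exists_shift hv
  haveI : Finite {q : V.Pt S.L // n • q = 0} := Nat.finite_of_card_ne_zero (by
    rw [S.card_torsion hQ hn]
    exact pow_ne_zero _ fun h => hn (by rw [h, Nat.cast_zero]))
  let f : K → {q : V.Pt S.L // n • q = 0} := fun c => ⟨p.map (e c), by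
    have h := congrArg (G.mapHom (e c)) hp
    rw [map_nsmul, map_zero] at h
    exact h⟩
  refine not_finite_iff_infinite.2 (inferInstanceAs (Infinite K))
    (Finite.of_injective f fun c d h => ?_)
  have h1 : p.map (e c) = p.map (e d) := congrArg Subtype.val h
  simp only [Space.Pt.map, Space.Pt.mk.injEq, heq_eq_eq, true_and] at h1
  have h2 : e c (p.φ b) = e d (p.φ b) := DFunLike.congr_fun h1 b
  rw [he, he] at h2
  exact (algebraMap K S.L).injective (add_left_cancel h2)

end Setup

/-- The number of torsion points from the quadratic degree. -/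
theorem targetCount_of_cube (hQ : TargetCube.{u}) : TargetCount.{u} := by
  intro K _ _ g V G n hn
  letI := G.group K
  obtain ⟨S⟩ := exists_setup G
  letI := G.group S.L
  rw [← S.card_torsion hQ hn]
  let φ := G.mapHom (Algebra.ofId K S.L)
  have hφ : Function.Injective φ := Space.Pt.map_injective _
  refine Nat.card_congr (Equiv.ofBijective
    (fun p : {p : V.Pt K // n • p = 0} => (⟨φ p.1, by rw [← map_nsmul, p.2, map_zero]⟩ :
      {p : V.Pt S.L // n • p = 0})) ⟨?_, ?_⟩)
  · exact fun p q h => Subtype.ext (hφ (congrArg Subtype.val h))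
  · rintro ⟨p, hp⟩
    have hv := S.vals_torsion hQ hn p hp
    let q : V.Pt K := (p.restrict ⊥ hv).map (IntermediateField.botEquiv K S.L).toAlgHom
    have hq : φ q = p := by
      show ((p.restrict ⊥ hv).map (IntermediateField.botEquiv K S.L).toAlgHom).map
        (Algebra.ofId K S.L) = p
      rw [Space.Pt.map_map, show (Algebra.ofId K S.L).comp (IntermediateField.botEquiv K S.L).toAlgHom =
        (⊥ : IntermediateField K S.L).val from AlgHom.ext fun z => ?_]
      · exact Space.Pt.map_restrict _ _ _
      obtain ⟨c, hc⟩ := IntermediateField.mem_bot.1 z.2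
      obtain rfl : z = algebraMap K _ c := Subtype.ext hc.symm
      simp
    exact ⟨⟨q, hφ (by rw [map_nsmul, hq, hp, map_zero])⟩, Subtype.ext hq⟩

end FLTAgent.AV
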